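import Fermat.Agent.ES.Defs
import Fermat.Agent.ES.B.H1.Formal
import Fermat.Prelude.Thm_ModularCurve_coeffMap_qExpand
import Mathlib.RingTheory.RootsOfUnity.EnoughRootsOfUnity
import Mathlib.RingTheory.RootsOfUnity.PrimitiveRoots

/-!
# ES/B: formal properties of the operators `Vq`, `twist`, `contract`, `normSer`, `heckeSer`
-/

set_option autoImplicit false

open AlgebraicCurve ModularCurve

namespace Fermat.Agent.ES

noncomputable section

section General

variable {R S : Type*} [CommRing R] [CommRing S]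

@[simp]
theorem twist_one (x : LaurentSeries R) : twist (1 : Rˣ) x = x := by
  ext n; simp

theorem twist_twist (z w : Rˣ) (x : LaurentSeries R) :
    twist z (twist w x) = twist (z * w) x := by
  ext n
  simp only [twist_coeff, mul_zpow, Units.val_mul, mul_assoc]

theorem coeffMap_twist (f : R →+* S) (z : Rˣ) (x : LaurentSeries R) :
    coeffMap f (twist z x) = twist (Units.map (f : R →* S) z) (coeffMap f x) := by
  ext n
  simp only [coeffMap_coeff, twist_coeff, map_mul]
  congr 1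
  rw [← map_zpow]
  rfl

theorem coeffMap_contract (f : R →+* S) (ℓ : ℕ) [NeZero ℓ] (x : LaurentSeries R) :
    coeffMap f (contract ℓ x) = contract ℓ (coeffMap f x) := by
  ext n; simp

attribute [simp] contract_Vq

theorem Vq_contract (ℓ : ℕ) [NeZero ℓ] (x : LaurentSeries R)
    (h : ∀ n : ℤ, ¬ (ℓ : ℤ) ∣ n → x.coeff n = 0) : Vq R ℓ (contract ℓ x) = x := by
  ext n
  by_cases hn : (ℓ : ℤ) ∣ n
  · obtain ⟨k, rfl⟩ := hn
    simp
  · rw [qExpand_coeff_of_not_dvd ℓ _ hn, h n hn]

theorem Vq_injective (ℓ : ℕ) [NeZero ℓ] : Function.Injective (Vq R ℓ) := qExpand_injective ℓ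

theorem coeffMap_Vq (f : R →+* S) (ℓ : ℕ) [NeZero ℓ] (x : LaurentSeries R) :
    coeffMap f (Vq R ℓ x) = Vq S ℓ (coeffMap f x) := coeffMap_qExpand f ℓ x

end General

section Domain

variable {R : Type*} [CommRing R] [IsDomain R] (ℓ : ℕ) [NeZero ℓ]

@[simp]
theorem twistProd_one : twistProd ℓ (1 : LaurentSeries R) = 1 := by
  simp [twistProd]

theorem twistProd_mul (x y : LaurentSeries R) :
    twistProd ℓ (x * y) = twistProd ℓ x * twistProd ℓ y := by
  simp [twistProd, Finset.prod_mul_distrib]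

theorem twist_twistProd (z : rootsOfUnity ℓ R) (x : LaurentSeries R) :
    twist (z : Rˣ) (twistProd ℓ x) = twistProd ℓ x := by
  unfold twistProd
  rw [map_prod]
  simp only [twist_twist]
  exact Fintype.prod_equiv (Equiv.mulLeft z) _ _ (fun w => rfl)

theorem twistProd_coeff_of_not_dvd {ζ : R} (hζ : IsPrimitiveRoot ζ ℓ) (x : LaurentSeries R)
    {n : ℤ} (hn : ¬ (ℓ : ℤ) ∣ n) : (twistProd ℓ x).coeff n = 0 := by
  have hu : IsUnit ζ := hζ.isUnit (NeZero.ne ℓ)
  obtain ⟨u, rfl⟩ := hu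
  have hu' : IsPrimitiveRoot u ℓ := IsPrimitiveRoot.coe_units_iff.mp hζ
  have hmem : u ∈ rootsOfUnity ℓ R := by
    rw [mem_rootsOfUnity]; exact hu'.pow_eq_one
  have h := congrArg (fun y => y.coeff n) (twist_twistProd ℓ ⟨u, hmem⟩ x)
  simp only [twist_coeff] at h
  have h1 : (((u ^ n : Rˣ) : R) - 1) * (twistProd ℓ x).coeff n = 0 := by
    rw [sub_mul, h, one_mul, sub_self]
  rcases mul_eq_zero.mp h1 with h2 | h2
  · exfalso
    apply hn
    have h3 : u ^ n = 1 := by
      apply Units.ext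
      rw [Units.val_one]
      exact sub_eq_zero.mp h2
    exact (hu'.zpow_eq_one_iff_dvd n).mp h3
  · exact h2

theorem Vq_normSer {ζ : R} (hζ : IsPrimitiveRoot ζ ℓ) (x : LaurentSeries R) :
    Vq R ℓ (normSer ℓ x) = twistProd ℓ x :=
  Vq_contract ℓ _ fun _ hn => twistProd_coeff_of_not_dvd ℓ hζ x hn

@[simp]
theorem normSer_one : normSer ℓ (1 : LaurentSeries R) = 1 := by
  rw [normSer, twistProd_one]
  have : (1 : LaurentSeries R) = Vq R ℓ 1 := (map_one _).symm
  rw [this, contract_Vq, map_one]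

theorem normSer_mul {ζ : R} (hζ : IsPrimitiveRoot ζ ℓ) (x y : LaurentSeries R) :
    normSer ℓ (x * y) = normSer ℓ x * normSer ℓ y := by
  apply Vq_injective (R := R) ℓ
  rw [map_mul, Vq_normSer ℓ hζ, Vq_normSer ℓ hζ, Vq_normSer ℓ hζ, twistProd_mul]

@[simp]
theorem heckeSer_one : heckeSer ℓ (1 : LaurentSeries R) = 1 := by
  simp [heckeSer]

theorem heckeSer_mul {ζ : R} (hζ : IsPrimitiveRoot ζ ℓ) (x y : LaurentSeries R) :
    heckeSer ℓ (x * y) = heckeSer ℓ x * heckeSer ℓ y := by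
  rw [heckeSer, heckeSer, heckeSer, map_mul, normSer_mul ℓ hζ]
  ring

end Domain

end

end Fermat.Agent.ES
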