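import Fermat.Agent.ES.B.Module

/-!
# ES/B: the multiplicative Hecke operators commute

Formal: `T_ℓ = V_ℓ · U_ℓ`; `V_ℓ V_ℓ' = V_ℓ' V_ℓ`, `U_ℓ V_ℓ' = V_ℓ' U_ℓ` and `U_ℓ U_ℓ' = U_ℓ' U_ℓ`
for coprime `ℓ, ℓ'`.
-/

set_option autoImplicit false

open AlgebraicCurve ModularCurve

namespace Fermat.Agent.ES

noncomputable section

namespace Comm

section Ring

variable {R : Type*} [CommRing R]

theorem Vq_Vq_comm (a b : ℕ) [NeZero a] [NeZero b] (x : LaurentSeries R) :
    Vq R a (Vq R b x) = Vq R b (Vq R a x) := by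
  rw [Vq, Vq, qExpand_qExpand, qExpand_qExpand]
  exact qExpand_congr (mul_comm a b) x

/-- `(V_b x)(z q) = V_b (x(z^b q))`. -/
theorem twist_Vq' (b : ℕ) [NeZero b] (z : Rˣ) (x : LaurentSeries R) :
    twist z (Vq R b x) = Vq R b (twist (z ^ b) x) := by
  ext n
  rw [twist_coeff]
  by_cases hn : (b : ℤ) ∣ n
  · obtain ⟨k, rfl⟩ := hn
    rw [qExpand_coeff_mul, qExpand_coeff_mul, twist_coeff, zpow_mul, zpow_natCast]
  · rw [qExpand_coeff_of_not_dvd b _ hn, qExpand_coeff_of_not_dvd b _ hn, mul_zero]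

end Ring

section Domain

variable {R : Type*} [CommRing R] [IsDomain R]

/-- `z ↦ z^b` is a permutation of `μ_a` for coprime `a, b`. -/
def powEquiv (a b : ℕ) [NeZero a] (hab : Nat.Coprime a b) : rootsOfUnity a R ≃ rootsOfUnity a R :=
  Equiv.ofBijective (fun z => z ^ b) <| by
    have hinj : Function.Injective (fun z : rootsOfUnity a R => z ^ b) := by
      intro z w hzw
      simp only at hzw
      have hz : z ^ a = 1 := Subtype.ext (by simpa using (mem_rootsOfUnity _ _).mp z.2)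
      have hw : w ^ a = 1 := Subtype.ext (by simpa using (mem_rootsOfUnity _ _).mp w.2)
      have h1 : (z / w) ^ a = 1 := by rw [div_pow, hz, hw, div_one]
      have h2 : (z / w) ^ b = 1 := by rw [div_pow, hzw, div_self']
      have h3 : (z / w) ^ (Nat.gcd a b) = 1 := pow_gcd_eq_one.mpr ⟨h1, h2⟩
      rw [hab, pow_one] at h3
      exact div_eq_one.mp h3
    exact Finite.injective_iff_bijective.mp hinj

theorem powEquiv_apply (a b : ℕ) [NeZero a] (hab : Nat.Coprime a b) (z : rootsOfUnity a R) :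
    powEquiv a b hab z = z ^ b := rfl

theorem twistProd_Vq (a b : ℕ) [NeZero a] [NeZero b] (hab : Nat.Coprime a b)
    (x : LaurentSeries R) : twistProd a (Vq R b x) = Vq R b (twistProd a x) := by
  unfold twistProd
  rw [map_prod]
  simp only [twist_Vq']
  exact Fintype.prod_equiv (powEquiv a b hab) _ _ (fun z => rfl)

theorem normSer_Vq (a b : ℕ) [NeZero a] [NeZero b] (hab : Nat.Coprime a b) {ζ : R}
    (hζ : IsPrimitiveRoot ζ a) (x : LaurentSeries R) :
    normSer a (Vq R b x) = Vq R b (normSer a x) := by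
  apply Vq_injective (R := R) a
  rw [Vq_normSer a hζ, Vq_Vq_comm, Vq_normSer a hζ, twistProd_Vq a b hab]

theorem twistProd_twistProd_comm (a b : ℕ) [NeZero a] [NeZero b] (x : LaurentSeries R) :
    twistProd a (twistProd b x) = twistProd b (twistProd a x) := by
  unfold twistProd
  simp only [map_prod, twist_twist]
  rw [Finset.prod_comm]
  refine Finset.prod_congr rfl fun w _ => Finset.prod_congr rfl fun z _ => ?_
  rw [mul_comm]

theorem normSer_normSer_comm (a b : ℕ) [NeZero a] [NeZero b] (hab : Nat.Coprime a b) {ζ ξ : R}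
    (hζ : IsPrimitiveRoot ζ a) (hξ : IsPrimitiveRoot ξ b) (x : LaurentSeries R) :
    normSer a (normSer b x) = normSer b (normSer a x) := by
  apply Vq_injective (R := R) a
  apply Vq_injective (R := R) b
  have h1 : Vq R b (Vq R a (normSer a (normSer b x))) = twistProd a (twistProd b x) := by
    rw [Vq_normSer a hζ, ← twistProd_Vq a b hab, Vq_normSer b hξ]
  have h2 : Vq R b (Vq R a (normSer b (normSer a x))) = twistProd b (twistProd a x) := by
    rw [Vq_Vq_comm, Vq_normSer b hξ, ← twistProd_Vq b a hab.symm, Vq_normSer a hζ]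
  rw [h1, h2, twistProd_twistProd_comm]

end Domain

end Comm

open Comm

theorem heckeSer_comm {R : Type*} [CommRing R] [IsDomain R] (a b : ℕ) [NeZero a] [NeZero b]
    (hab : Nat.Coprime a b) {ζ ξ : R} (hζ : IsPrimitiveRoot ζ a) (hξ : IsPrimitiveRoot ξ b)
    (x : LaurentSeries R) : heckeSer a (heckeSer b x) = heckeSer b (heckeSer a x) := by
  have h1 : heckeSer a (heckeSer b x)
      = Vq R a (Vq R b x) * Vq R a (normSer b x) * (normSer a (Vq R b x)
        * normSer a (normSer b x)) := by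
    rw [heckeSer, heckeSer, map_mul, normSer_mul a hζ]
  have h2 : heckeSer b (heckeSer a x)
      = Vq R b (Vq R a x) * Vq R b (normSer a x) * (normSer b (Vq R a x)
        * normSer b (normSer a x)) := by
    rw [heckeSer, heckeSer, map_mul, normSer_mul b hξ]
  rw [h1, h2, normSer_Vq a b hab hζ, normSer_Vq b a hab.symm hξ,
    normSer_normSer_comm a b hab hζ hξ, Vq_Vq_comm a b]
  ring

variable {N m : ℕ} [NeZero N]

theorem heckeKum_comm (ℓ ℓ' : ℕ) [NeZero ℓ] [NeZero ℓ'] (hℓ : ℓ.Prime) (hℓN : ¬ ℓ ∣ N)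
    (hℓ' : ℓ'.Prime) (hℓ'N : ¬ ℓ' ∣ N) (x : Kum N m) :
    heckeKum N ℓ hℓ hℓN m (heckeKum N ℓ' hℓ' hℓ'N m x)
      = heckeKum N ℓ' hℓ' hℓ'N m (heckeKum N ℓ hℓ hℓN m x) := by
  by_cases h : ℓ = ℓ'
  · subst h
    rfl
  obtain ⟨f, rfl⟩ := Kum.mk_surjective x
  rw [heckeKum_mk, heckeKum_mk, heckeKum_mk, heckeKum_mk]
  refine congrArg Kum.mk (Subtype.ext (Units.ext (Subtype.ext ?_)))
  obtain ⟨ζ, hζ⟩ := exists_primitiveRoot_Qb ℓ
  obtain ⟨ξ, hξ⟩ := exists_primitiveRoot_Qb ℓ'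
  exact heckeSer_comm ℓ ℓ' ((Nat.coprime_primes hℓ hℓ').mpr h) hζ hξ _

theorem heckeEnd_commute (ℓ ℓ' : ℕ) [NeZero ℓ] [NeZero ℓ'] (hℓ : ℓ.Prime) (hℓN : ¬ ℓ ∣ N)
    (hℓ' : ℓ'.Prime) (hℓ'N : ¬ ℓ' ∣ N) :
    Commute (heckeEnd N ℓ hℓ hℓN m) (heckeEnd N ℓ' hℓ' hℓ'N m) :=
  LinearMap.ext fun x => heckeKum_comm ℓ ℓ' hℓ hℓN hℓ' hℓ'N x

end

end Fermat.Agent.ES
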