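import Mathlib
import Fermat.Prelude.Def_AlgebraicCurve_DivisorPushPull
import Fermat.Agent.S24.FF.PlacePrime

/-!
# ES/B (H2), generic part: norms preserve `m ∣ div`

`F'/F` a finite extension of fields over a field `K` of characteristic `0`.  If `m ∣ ord_Q g` for all
places `Q` of `F'/K`, then `m ∣ ord_P (Norm_{F'/F} g)` for all places `P` of `F/K`.

Proof: the integral closure `S` of the valuation ring `O_P` in `F'` is a semilocal Dedekind domain,
hence a PID; so `g = u * h ^ m` with `u ∈ Sˣ`, and `Norm u` is a unit of `O_P`.
-/

set_option autoImplicit false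

open AlgebraicCurve IsDedekindDomain

namespace Fermat.Agent.ES

namespace DivNorm

section Semilocal

variable {S L : Type*} [CommRing S] [IsDedekindDomain S] [Field L] [Algebra S L]
  [IsFractionRing S L]

/-- In a semilocal Dedekind domain, an element all of whose valuations are divisible by `m`
is a unit times an `m`-th power. -/
theorem exists_unit_mul_pow [Finite (HeightOneSpectrum S)] (m : ℕ) (g : L) (hg : g ≠ 0)
    (h : ∀ v : HeightOneSpectrum S, (m : ℤ) ∣ WithZero.log (v.valuation L g)) :
    ∃ (u u' : S) (y : L), y ≠ 0 ∧ u * u' = 1 ∧ g = algebraMap S L u * y ^ m := by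
  classical
  cases nonempty_fintype (HeightOneSpectrum S)
  have hfin : {I : Ideal S | I.IsPrime}.Finite := by
    have h1 : {I : Ideal S | I.IsPrime} ⊆
        insert ⊥ (Set.range (HeightOneSpectrum.asIdeal : HeightOneSpectrum S → Ideal S)) := by
      intro I hI
      by_cases hb : I = ⊥
      · exact Or.inl hb
      · exact Or.inr ⟨⟨I, hI, hb⟩, rfl⟩
    exact ((Set.finite_range _).insert _).subset h1
  have hpid : IsPrincipalIdealRing S := IsPrincipalIdealRing.of_finite_primes hfin
  -- generators of the primes
  have hgen : ∀ v : HeightOneSpectrum S, ∃ π : S, v.asIdeal = Ideal.span {π} := fun v =>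
    ⟨_, (Ideal.span_singleton_generator v.asIdeal).symm⟩
  choose π hπ using hgen
  have hπ0 : ∀ v, π v ≠ 0 := by
    intro v h0
    apply v.ne_bot
    rw [hπ v, h0, Ideal.span_singleton_eq_bot]
  have hval_self : ∀ v : HeightOneSpectrum S,
      v.valuation L (algebraMap S L (π v)) = WithZero.exp (-1 : ℤ) := by
    intro v
    rw [HeightOneSpectrum.valuation_of_algebraMap]
    exact HeightOneSpectrum.intValuation_singleton v (hπ0 v) (hπ v)
  have hval_ne : ∀ v w : HeightOneSpectrum S, v ≠ w →
      v.valuation L (algebraMap S L (π w)) = 1 := by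
    intro v w hvw
    rw [HeightOneSpectrum.valuation_of_algebraMap, HeightOneSpectrum.intValuation_eq_one_iff]
    intro hmem
    apply hvw
    have hle : w.asIdeal ≤ v.asIdeal := by
      rw [hπ w, Ideal.span_singleton_le_iff_mem]
      exact hmem
    exact (HeightOneSpectrum.ext (w.isMaximal.eq_of_le v.isPrime.ne_top hle)).symm
  choose c hc using h
  -- `log (v g) = m * c v`;  `y = ∏ π_v ^ (- c v)`
  let y : L := ∏ v : HeightOneSpectrum S, (algebraMap S L (π v)) ^ (-(c v))
  have hπL : ∀ v, algebraMap S L (π v) ≠ 0 := fun v => by
    simpa using hπ0 v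
  have hy0 : y ≠ 0 := Finset.prod_ne_zero_iff.mpr fun v _ => zpow_ne_zero _ (hπL v)
  have hvaly : ∀ v : HeightOneSpectrum S, v.valuation L y = WithZero.exp (c v) := by
    intro v
    rw [map_prod, Finset.prod_eq_single v]
    · rw [map_zpow₀, hval_self, ← WithZero.exp_zsmul]
      simp
    · intro w _ hwv
      rw [map_zpow₀, hval_ne v w (Ne.symm hwv), one_zpow]
    · intro hv
      exact absurd (Finset.mem_univ v) hv
  have hvalg : ∀ v : HeightOneSpectrum S, v.valuation L g = WithZero.exp ((m : ℤ) * c v) := by
    intro v
    rw [← hc v, WithZero.exp_log ((Valuation.ne_zero_iff _).mpr hg)]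
  have hone : ∀ v : HeightOneSpectrum S, v.valuation L (g / y ^ m) = 1 := by
    intro v
    rw [map_div₀, map_pow, hvaly, hvalg, ← WithZero.exp_nsmul, nsmul_eq_mul, div_self]
    exact WithZero.exp_ne_zero
  obtain ⟨u, hu⟩ := HeightOneSpectrum.mem_integers_of_valuation_le_one L (g / y ^ m)
    fun v => (hone v).le
  obtain ⟨u', hu'⟩ := HeightOneSpectrum.mem_integers_of_valuation_le_one L (g / y ^ m)⁻¹
    fun v => by rw [map_inv₀, hone v, inv_one]
  refine ⟨u, u', y, hy0, ?_, ?_⟩
  · apply IsFractionRing.injective S L
    rw [map_mul, hu, hu', map_one]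
    exact mul_inv_cancel₀ (div_ne_zero hg (pow_ne_zero _ hy0))
  · rw [hu, div_mul_cancel₀ _ (pow_ne_zero _ hy0)]

end Semilocal

section Closure

variable {O F' : Type*} [CommRing O] [IsDomain O] [IsDiscreteValuationRing O] [Field F']
  [Algebra O F']

/-- The integral closure of a DVR in a finite separable extension is semilocal. -/
theorem finite_heightOneSpectrum_integralClosure (F : Type*) [Field F]
    [Algebra O F] [IsFractionRing O F] [Algebra F F'] [IsScalarTower O F F']
    [IsDedekindDomain (integralClosure O F')] :
    Finite (HeightOneSpectrum (integralClosure O F')) := by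
  classical
  obtain ⟨ϖ, hϖ⟩ := IsDiscreteValuationRing.exists_irreducible O
  have hinj : Function.Injective (algebraMap O (integralClosure O F')) := by
    have h1 : Function.Injective (algebraMap O F') := by
      rw [IsScalarTower.algebraMap_eq O F F']
      exact (algebraMap F F').injective.comp (IsFractionRing.injective O F)
    intro a b hab
    apply h1
    have := congrArg (algebraMap (integralClosure O F') F') hab
    rwa [← IsScalarTower.algebraMap_apply, ← IsScalarTower.algebraMap_apply] at this
  set I : Ideal (integralClosure O F') := Ideal.span {algebraMap O (integralClosure O F') ϖ}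
    with hI
  have hI0 : I ≠ 0 := by
    rw [hI, Ne, Ideal.zero_eq_bot, Ideal.span_singleton_eq_bot]
    intro h0
    exact hϖ.ne_zero (hinj (by rw [h0, map_zero]))
  have hall : ∀ v : HeightOneSpectrum (integralClosure O F'), v.asIdeal ∣ I := by
    intro v
    rw [Ideal.dvd_iff_le, hI, Ideal.span_singleton_le_iff_mem]
    have hne : v.asIdeal.comap (algebraMap O (integralClosure O F')) ≠ ⊥ := by
      obtain ⟨x, hx, hx0⟩ := Submodule.exists_mem_ne_zero_of_ne_bot v.ne_bot
      exact Ideal.comap_ne_bot_of_integral_mem hx0 hx
        (Algebra.IsIntegral.isIntegral (R := O) x)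
    have hprime : (v.asIdeal.comap (algebraMap O (integralClosure O F'))).IsPrime :=
      Ideal.comap_isPrime _ _
    have hmax : v.asIdeal.comap (algebraMap O (integralClosure O F'))
        = IsLocalRing.maximalIdeal O :=
      IsLocalRing.eq_maximalIdeal (hprime.isMaximal hne)
    have : ϖ ∈ v.asIdeal.comap (algebraMap O (integralClosure O F')) := by
      rw [hmax]
      exact hϖ.not_isUnit
    exact this
  have := Ideal.finite_factors hI0
  rw [show {v : HeightOneSpectrum (integralClosure O F') | v.asIdeal ∣ I} = Set.univ from
    Set.eq_univ_of_forall hall] at this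
  exact Set.finite_univ_iff.mp this

end Closure

end DivNorm

open DivNorm in
/-- **Norms preserve `m ∣ div`.** -/
theorem dvd_ord_norm {K F F' : Type*} [Field K] [CharZero K] [Field F] [Field F']
    [Algebra K F] [Algebra K F'] [Algebra F F'] [IsScalarTower K F F'] [Module.Finite F F']
    (m : ℕ) (g : F') (hg : g ≠ 0) (h : ∀ Q : Place K F', (m : ℤ) ∣ Q.ord g) (P : Place K F) :
    (m : ℤ) ∣ P.ord (Algebra.norm F g) := by
  classical
  have : CharZero F := charZero_of_injective_algebraMap (algebraMap K F).injective
  let O := P.toValuationSubring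
  letI : Algebra O F' := ((algebraMap F F').comp O.subtype).toAlgebra
  haveI : IsScalarTower O F F' := IsScalarTower.of_algebraMap_eq fun _ => rfl
  haveI : IsDedekindDomain (integralClosure O F') := integralClosure.isDedekindDomain O F F'
  haveI : IsFractionRing (integralClosure O F') F' :=
    integralClosure.isFractionRing_of_finite_extension F F'
  haveI : Finite (HeightOneSpectrum (integralClosure O F')) :=
    finite_heightOneSpectrum_integralClosure F
  letI : Algebra K (integralClosure O F') :=
    ((algebraMap O (integralClosure O F')).comp (algebraMap K O)).toAlgebra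
  haveI : IsScalarTower K (integralClosure O F') F' := IsScalarTower.of_algebraMap_eq fun a => by
    rw [IsScalarTower.algebraMap_apply K F F']
    rfl
  have hv : ∀ v : HeightOneSpectrum (integralClosure O F'),
      (m : ℤ) ∣ WithZero.log (v.valuation F' g) := by
    intro v
    have h1 := h (Place.ofHeightOneSpectrum (K := K) v)
    rw [S24.FF.ord_eq_of_valuationSubring_eq (Place.ofHeightOneSpectrum (K := K) v)
      (v.valuation F') rfl (v.valuation_exists_uniformizer F') g] at h1
    exact (dvd_neg).mp h1
  obtain ⟨u, u', y, hy0, huu', hgy⟩ := exists_unit_mul_pow m g hg hv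
  have hint : ∀ x : integralClosure O F', 0 ≤ P.ord (Algebra.norm F (x : F')) := by
    intro x
    have h1 : IsIntegral O (Algebra.norm F (x : F')) := Algebra.isIntegral_norm F x.2
    obtain ⟨z, hz⟩ := IsIntegrallyClosed.isIntegral_iff.mp h1
    rw [← hz]
    exact S24.FF.ord_nonneg_of_mem P z.2
  have hu0 : (u : F') ≠ 0 := by
    intro h0
    have := congrArg (fun x : integralClosure O F' => (x : F')) huu'
    simp only [MulMemClass.coe_mul, OneMemClass.coe_one, h0, zero_mul] at this
    exact zero_ne_one this
  have hu'0 : (u' : F') ≠ 0 := by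
    intro h0
    have := congrArg (fun x : integralClosure O F' => (x : F')) huu'
    simp only [MulMemClass.coe_mul, OneMemClass.coe_one, h0, mul_zero] at this
    exact zero_ne_one this
  have hNu : P.ord (Algebra.norm F (u : F')) = 0 := by
    have h1 := hint u
    have h2 := hint u'
    have h3 : Algebra.norm F (u : F') * Algebra.norm F (u' : F') = 1 := by
      rw [← map_mul]
      have := congrArg (fun x : integralClosure O F' => (x : F')) huu'
      simp only [MulMemClass.coe_mul, OneMemClass.coe_one] at this
      rw [this, map_one]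
    have h4 := congrArg P.ord h3
    rw [P.ord_mul (Algebra.norm_ne_zero_iff.mpr hu0) (Algebra.norm_ne_zero_iff.mpr hu'0),
      P.ord_one] at h4
    omega
  have hgy' : g = (u : F') * y ^ m := hgy
  rw [hgy', map_mul, map_pow, P.ord_mul (Algebra.norm_ne_zero_iff.mpr hu0)
    (pow_ne_zero _ (Algebra.norm_ne_zero_iff.mpr hy0)), hNu, zero_add, S24.FF.ord_pow]
  exact dvd_mul_right _ _

end Fermat.Agent.ES
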