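import Fermat.Agent.ES.B.HeckeNormDiv

/-!
# ES/B (H2): the multiplicative Hecke operator preserves `m ∣ div f`

`heckeSer ℓ f = heckeNorm N ℓ f = Norm_α (β f)` (`HeckeNorm.lean`), `ord_Q (β f) = e * ord f`
(Prelude `Place.ord_restrictAlong`) and norms preserve `m ∣ div` (`DivNorm.lean`).
-/

set_option autoImplicit false

open AlgebraicCurve ModularCurve

namespace Fermat.Agent.ES

/-- Version with an arbitrary proof of membership. -/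
theorem dvd_ord_heckeSer' (N ℓ m : ℕ) [NeZero N] [NeZero ℓ] (hℓ : ℓ.Prime) (hℓN : ¬ ℓ ∣ N)
    (f : FF N) (hf0 : f ≠ 0) (hf : ∀ P : Place Qb (FF N), (m : ℤ) ∣ P.ord f)
    (hmem : heckeSer ℓ (f : LaurentSeries Qb) ∈ modularFunctionFieldBar N)
    (P : Place Qb (FF N)) :
    (m : ℤ) ∣ P.ord (⟨heckeSer ℓ (f : LaurentSeries Qb), hmem⟩ : FF N) := by
  have h : (⟨heckeSer ℓ (f : LaurentSeries Qb), hmem⟩ : FF N) = heckeNorm N ℓ f :=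
    Subtype.ext (heckeSer_eq_heckeNorm N ℓ hℓ hℓN f)
  rw [h]
  exact dvd_ord_heckeNorm N ℓ m f hf0 hf P

theorem dvd_ord_heckeSer (N ℓ m : ℕ) [NeZero N] [NeZero ℓ] (hℓ : ℓ.Prime) (hℓN : ¬ ℓ ∣ N)
    (f : FF N) (hf0 : f ≠ 0) (hf : ∀ P : Place Qb (FF N), (m : ℤ) ∣ P.ord f)
    (P : Place Qb (FF N)) :
    (m : ℤ) ∣ P.ord (⟨heckeSer ℓ (f : LaurentSeries Qb), heckeSer_mem N ℓ hℓ hℓN f⟩ : FF N) :=
  dvd_ord_heckeSer' N ℓ m hℓ hℓN f hf0 hf _ P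

end Fermat.Agent.ES
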