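import Fermat.Agent.ES.B.H1.AtkinLehner
import Fermat.Agent.ES.B.H1.Degree
import Fermat.Agent.ES.B.H1.Formal

/-!
# ES/B (H1): the multiplicative Hecke operator is a norm

`heckeSer ℓ f = f(q^ℓ) ∏_{z^ℓ=1} f(z q^{1/ℓ})` equals `Norm_α (β f)` for `f ∈ F_N`, `ℓ ∤ N` prime.
In particular it lies in `F_N`.
-/

set_option autoImplicit false

open AlgebraicCurve ModularCurve

namespace Fermat.Agent.ES

noncomputable section

/-- The multiplicative Hecke operator `f ↦ Norm_α (β f)`, where `α, β : F_N → F_{Nℓ}` are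
`f(q) ↦ f(q)` and `f(q) ↦ f(q^ℓ)`. -/
def heckeNorm (N ℓ : ℕ) [NeZero N] [NeZero ℓ] : FF N →* FF N :=
  letI := algebraAlong (heckeAlphaBar Qb N ℓ)
  (Algebra.norm (FF N)).comp
    ((heckeBetaBar Qb N ℓ : FF N →ₐ[Qb] FF (N * ℓ)) : FF N →* FF (N * ℓ))

namespace H1

/-- A big algebraically closed field. -/
abbrev Om : Type := AlgebraicClosure (LaurentSeries Qb)

/-- `Qb((q)) → Ω`. -/
abbrev io : LaurentSeries Qb →+* Om := algebraMap (LaurentSeries Qb) Om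

/-- coercion `F_N → Qb((q))` as a ring hom -/
abbrev co (N : ℕ) : FF N →+* LaurentSeries Qb := (modularFunctionFieldBar N).val.toRingHom

theorem io_injective : Function.Injective io := io.injective

section

variable (N ℓ : ℕ) [NeZero ℓ]

/-- `F_N → Ω`, `f ↦ f(q^ℓ)`. -/
def baseHom : FF N →+* Om := io.comp ((Vq Qb ℓ).comp (co N))

theorem baseHom_apply (f : FF N) :
    baseHom N ℓ f = io (Vq Qb ℓ (f : LaurentSeries Qb)) := rfl

/-- `F_{Nℓ} → Ω`, `f ↦ f(q^ℓ)`. -/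
def infHom : FF (N * ℓ) →+* Om := io.comp ((Vq Qb ℓ).comp (co (N * ℓ)))

theorem infHom_apply (f : FF (N * ℓ)) :
    infHom N ℓ f = io (Vq Qb ℓ (f : LaurentSeries Qb)) := rfl

/-- `F_{Nℓ} → Ω`, `f ↦ (w f)(z q)`. -/
def zHom (w : FF (N * ℓ) →ₐ[Qb] FF (N * ℓ)) (z : Qbˣ) : FF (N * ℓ) →+* Om :=
  io.comp ((twist z).comp ((co (N * ℓ)).comp w.toRingHom))

theorem zHom_apply (w : FF (N * ℓ) →ₐ[Qb] FF (N * ℓ)) (z : Qbˣ) (f : FF (N * ℓ)) :
    zHom N ℓ w z f = io (twist z ((w f : FF (N * ℓ)) : LaurentSeries Qb)) := rfl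

end

variable (N ℓ : ℕ) [NeZero N] [NeZero ℓ]

theorem infHom_alpha (f : FF N) : infHom N ℓ (heckeAlphaBar Qb N ℓ f) = baseHom N ℓ f := by
  rw [infHom_apply, baseHom_apply, coe_heckeAlphaBar]

theorem infHom_beta (f : FF N) :
    infHom N ℓ (heckeBetaBar Qb N ℓ f) = io (Vq Qb ℓ (Vq Qb ℓ (f : LaurentSeries Qb))) := by
  rw [infHom_apply, coe_heckeBetaBar]

theorem zHom_alpha (w : FF (N * ℓ) →ₐ[Qb] FF (N * ℓ))
    (hw : ∀ f : FF N, w (heckeAlphaBar Qb N ℓ f) = heckeBetaBar Qb N ℓ f)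
    (z : Qbˣ) (hz : z ^ ℓ = 1) (f : FF N) :
    zHom N ℓ w z (heckeAlphaBar Qb N ℓ f) = baseHom N ℓ f := by
  rw [zHom_apply, baseHom_apply, hw, coe_heckeBetaBar, twist_Vq ℓ z hz]

theorem zHom_beta (w : FF (N * ℓ) →ₐ[Qb] FF (N * ℓ))
    (hw : ∀ f : FF N, w (heckeBetaBar Qb N ℓ f) = heckeAlphaBar Qb N ℓ f)
    (z : Qbˣ) (f : FF N) :
    zHom N ℓ w z (heckeBetaBar Qb N ℓ f) = io (twist z (f : LaurentSeries Qb)) := by
  rw [zHom_apply, hw, coe_heckeAlphaBar]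

/-- the embedding `V_ℓ` of `F_{Nℓ}` over `F_N` -/
def embInf :
    letI := algebraAlong (heckeAlphaBar Qb N ℓ)
    letI := (baseHom N ℓ).toAlgebra
    FF (N * ℓ) →ₐ[FF N] Om :=
  letI := algebraAlong (heckeAlphaBar Qb N ℓ)
  letI := (baseHom N ℓ).toAlgebra
  { infHom N ℓ with
    commutes' := fun f => infHom_alpha N ℓ f }

/-- the embedding `twist z ∘ w` of `F_{Nℓ}` over `F_N` -/
def embZ (w : FF (N * ℓ) →ₐ[Qb] FF (N * ℓ))
    (hw : ∀ f : FF N, w (heckeAlphaBar Qb N ℓ f) = heckeBetaBar Qb N ℓ f)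
    (z : rootsOfUnity ℓ Qb) :
    letI := algebraAlong (heckeAlphaBar Qb N ℓ)
    letI := (baseHom N ℓ).toAlgebra
    FF (N * ℓ) →ₐ[FF N] Om :=
  letI := algebraAlong (heckeAlphaBar Qb N ℓ)
  letI := (baseHom N ℓ).toAlgebra
  { zHom N ℓ w (z : Qbˣ) with
    commutes' := fun f => zHom_alpha N ℓ w hw z ((mem_rootsOfUnity _ _).mp z.2) f }

/-- all the embeddings -/
def embAll (w : FF (N * ℓ) →ₐ[Qb] FF (N * ℓ))
    (hw : ∀ f : FF N, w (heckeAlphaBar Qb N ℓ f) = heckeBetaBar Qb N ℓ f) :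
    letI := algebraAlong (heckeAlphaBar Qb N ℓ)
    letI := (baseHom N ℓ).toAlgebra
    Option (rootsOfUnity ℓ Qb) → (FF (N * ℓ) →ₐ[FF N] Om) :=
  fun o => o.elim (embInf N ℓ) (embZ N ℓ w hw)

theorem embAll_none_apply (w : FF (N * ℓ) →ₐ[Qb] FF (N * ℓ))
    (hw : ∀ f : FF N, w (heckeAlphaBar Qb N ℓ f) = heckeBetaBar Qb N ℓ f) (x : FF (N * ℓ)) :
    letI := algebraAlong (heckeAlphaBar Qb N ℓ)
    letI := (baseHom N ℓ).toAlgebra
    embAll N ℓ w hw none x = infHom N ℓ x := rfl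

theorem embAll_some_apply (w : FF (N * ℓ) →ₐ[Qb] FF (N * ℓ))
    (hw : ∀ f : FF N, w (heckeAlphaBar Qb N ℓ f) = heckeBetaBar Qb N ℓ f)
    (z : rootsOfUnity ℓ Qb) (x : FF (N * ℓ)) :
    letI := algebraAlong (heckeAlphaBar Qb N ℓ)
    letI := (baseHom N ℓ).toAlgebra
    embAll N ℓ w hw (some z) x = zHom N ℓ w (z : Qbˣ) x := rfl

/-- the `q⁻¹`-coefficient of `j` -/
theorem coeff_jN : ((S24.jN N : FF N) : LaurentSeries Qb).coeff (-1) = 1 := by
  show (coeffEmb Qb (qExpand ℚ 1 jq)).coeff (-1) = 1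
  rw [qExpand_one_apply, coeffEmb_coeff, coeff_jq_neg_one, map_one]

theorem embAll_injective (hℓ : ℓ.Prime) (w : FF (N * ℓ) →ₐ[Qb] FF (N * ℓ))
    (hw : ∀ f : FF N, w (heckeAlphaBar Qb N ℓ f) = heckeBetaBar Qb N ℓ f)
    (hw' : ∀ f : FF N, w (heckeBetaBar Qb N ℓ f) = heckeAlphaBar Qb N ℓ f) :
    letI := algebraAlong (heckeAlphaBar Qb N ℓ)
    letI := (baseHom N ℓ).toAlgebra
    Function.Injective (embAll N ℓ w hw) := by
  letI := algebraAlong (heckeAlphaBar Qb N ℓ)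
  letI := (baseHom N ℓ).toAlgebra
  -- the invariant: the `q⁻¹`-coefficient of the image of `β j`
  have hnone : embAll N ℓ w hw none (heckeBetaBar Qb N ℓ (S24.jN N))
      = io (Vq Qb ℓ (Vq Qb ℓ ((S24.jN N : FF N) : LaurentSeries Qb))) := by
    rw [embAll_none_apply, infHom_beta]
  have hsome : ∀ z : rootsOfUnity ℓ Qb, embAll N ℓ w hw (some z) (heckeBetaBar Qb N ℓ (S24.jN N))
      = io (twist (z : Qbˣ) ((S24.jN N : FF N) : LaurentSeries Qb)) := by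
    intro z
    rw [embAll_some_apply, zHom_beta N ℓ w hw']
  have hc0 : (Vq Qb ℓ (Vq Qb ℓ ((S24.jN N : FF N) : LaurentSeries Qb))).coeff (-1) = 0 := by
    apply qExpand_coeff_of_not_dvd
    intro h
    have h1 : (ℓ : ℤ) ∣ 1 := (dvd_neg).mp h
    have h2 : ℓ ∣ 1 := by exact_mod_cast h1
    exact hℓ.one_lt.ne' (Nat.dvd_one.mp h2)
  have hcz : ∀ z : Qbˣ, (twist z ((S24.jN N : FF N) : LaurentSeries Qb)).coeff (-1)
      = ((z⁻¹ : Qbˣ) : Qb) := by
    intro z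
    rw [twist_coeff, coeff_jN, mul_one, zpow_neg_one]
  intro a b hab
  have hab' := DFunLike.congr_fun hab (heckeBetaBar Qb N ℓ (S24.jN N))
  rcases a with _ | a <;> rcases b with _ | b
  · rfl
  · exfalso
    rw [hnone, hsome] at hab'
    have := congrArg (fun s => HahnSeries.coeff s (-1)) (io_injective hab')
    simp only [hc0, hcz] at this
    exact (Units.ne_zero _) this.symm
  · exfalso
    rw [hnone, hsome] at hab'
    have := congrArg (fun s => HahnSeries.coeff s (-1)) (io_injective hab')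
    simp only [hc0, hcz] at this
    exact (Units.ne_zero _) this
  · rw [hsome, hsome] at hab'
    have := congrArg (fun s => HahnSeries.coeff s (-1)) (io_injective hab')
    simp only [hcz] at this
    have h2 : ((a : Qbˣ))⁻¹ = ((b : Qbˣ))⁻¹ := Units.ext this
    exact congrArg some (Subtype.ext (inv_injective h2))

theorem card_roots : Fintype.card (rootsOfUnity ℓ Qb) = ℓ := by
  rw [Fintype.card_eq_nat_card]
  exact HasEnoughRootsOfUnity.natCard_rootsOfUnity Qb ℓ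

end H1

open H1

theorem Vq_heckeNorm (N ℓ : ℕ) [NeZero N] [NeZero ℓ] (hℓ : ℓ.Prime) (hN : ¬ ℓ ∣ N) (f : FF N) :
    Vq Qb ℓ ((heckeNorm N ℓ f : FF N) : LaurentSeries Qb)
      = Vq Qb ℓ (Vq Qb ℓ (f : LaurentSeries Qb)) * twistProd ℓ (f : LaurentSeries Qb) := by
  obtain ⟨w, hw, hw'⟩ := exists_atkinLehner N ℓ hℓ hN
  letI := algebraAlong (heckeAlphaBar Qb N ℓ)
  letI := (baseHom N ℓ).toAlgebra
  haveI : FiniteDimensional (FF N) (FF (N * ℓ)) := finiteAlong_heckeAlpha N ℓ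
  have hnorm := Algebra.norm_eq_prod_embeddings (FF N) Om (heckeBetaBar Qb N ℓ f)
  have hcard : Fintype.card (Option (rootsOfUnity ℓ Qb))
      = Fintype.card (FF (N * ℓ) →ₐ[FF N] Om) := by
    rw [AlgHom.card, Fintype.card_option, card_roots]
    exact (finrankAlong_heckeAlpha N ℓ hℓ hN).symm
  have hbij : Function.Bijective (embAll N ℓ w hw) :=
    (Fintype.bijective_iff_injective_and_card _).mpr ⟨embAll_injective N ℓ hℓ w hw hw', hcard⟩
  rw [← Fintype.prod_bijective (embAll N ℓ w hw) hbij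
    (fun o => embAll N ℓ w hw o (heckeBetaBar Qb N ℓ f)) _ (fun _ => rfl),
    Fintype.prod_option] at hnorm
  apply io_injective
  have h1 : algebraMap (FF N) Om (Algebra.norm (FF N) (heckeBetaBar Qb N ℓ f))
      = io (Vq Qb ℓ ((heckeNorm N ℓ f : FF N) : LaurentSeries Qb)) := rfl
  rw [← h1, hnorm, embAll_none_apply, infHom_beta, map_mul, twistProd, map_prod]
  congr 1
  refine Finset.prod_congr rfl fun z _ => ?_
  rw [embAll_some_apply, zHom_beta N ℓ w hw']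

theorem heckeSer_eq_heckeNorm (N ℓ : ℕ) [NeZero N] [NeZero ℓ] (hℓ : ℓ.Prime) (hN : ¬ ℓ ∣ N)
    (f : FF N) :
    heckeSer ℓ (f : LaurentSeries Qb) = ((heckeNorm N ℓ f : FF N) : LaurentSeries Qb) := by
  have h := Vq_heckeNorm N ℓ hℓ hN f
  rcases eq_or_ne f 0 with rfl | hf
  · have h0 : Vq Qb ℓ ((heckeNorm N ℓ (0 : FF N) : FF N) : LaurentSeries Qb) = 0 := by
      rw [h]; simp
    have h1 : ((heckeNorm N ℓ (0 : FF N) : FF N) : LaurentSeries Qb) = 0 :=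
      (map_eq_zero_iff _ (qExpand_injective ℓ)).mp h0
    rw [h1, heckeSer]
    simp
  · have hf' : (f : LaurentSeries Qb) ≠ 0 := by simpa using hf
    have hV : Vq Qb ℓ (f : LaurentSeries Qb) ≠ 0 :=
      (map_ne_zero_iff _ (qExpand_injective ℓ)).mpr hf'
    have hVV : Vq Qb ℓ (Vq Qb ℓ (f : LaurentSeries Qb)) ≠ 0 :=
      (map_ne_zero_iff _ (qExpand_injective ℓ)).mpr hV
    have h2 : twistProd ℓ (f : LaurentSeries Qb)
        = Vq Qb ℓ (((heckeNorm N ℓ f : FF N) : LaurentSeries Qb) / Vq Qb ℓ (f : LaurentSeries Qb)) := by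
      rw [map_div₀, h, mul_div_cancel_left₀ _ hVV]
    rw [heckeSer, normSer, h2, contract_Vq, mul_div_cancel₀ _ hV]

theorem heckeSer_mem (N ℓ : ℕ) [NeZero N] [NeZero ℓ] (hℓ : ℓ.Prime) (hN : ¬ ℓ ∣ N) (f : FF N) :
    heckeSer ℓ (f : LaurentSeries Qb) ∈ modularFunctionFieldBar N := by
  rw [heckeSer_eq_heckeNorm N ℓ hℓ hN f]
  exact (heckeNorm N ℓ f).2

end

end Fermat.Agent.ES
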