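import Fermat.Agent.ES.B.HeckeNorm
import Fermat.Agent.ES.B.DivNorm

/-!
# ES/B (H2): `heckeNorm` preserves `m ∣ div f`
-/

set_option autoImplicit false

open AlgebraicCurve ModularCurve

namespace Fermat.Agent.ES

theorem dvd_ord_heckeNorm (N ℓ m : ℕ) [NeZero N] [NeZero ℓ]
    (f : FF N) (hf0 : f ≠ 0) (hf : ∀ P : Place Qb (FF N), (m : ℤ) ∣ P.ord f)
    (P : Place Qb (FF N)) : (m : ℤ) ∣ P.ord (heckeNorm N ℓ f) := by
  letI := algebraAlong (heckeAlphaBar Qb N ℓ)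
  haveI := isScalarTower_along (heckeAlphaBar Qb N ℓ)
  haveI : Module.Finite (FF N) (FF (N * ℓ)) := finiteAlong_heckeAlpha N ℓ
  have hβ := heckeBetaBarIntegral N ℓ
  have h1 : ∀ Q : Place Qb (FF (N * ℓ)), (m : ℤ) ∣ Q.ord (heckeBetaBar Qb N ℓ f) := by
    intro Q
    rw [Place.ord_restrictAlong (heckeBetaBar Qb N ℓ) hβ Q f]
    exact Dvd.dvd.mul_left (hf _) _
  have h0 : heckeBetaBar Qb N ℓ f ≠ 0 := by
    rw [Ne, map_eq_zero]
    exact hf0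
  exact dvd_ord_norm m (heckeBetaBar Qb N ℓ f) h0 h1 P

end Fermat.Agent.ES
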