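import Fermat.Agent.ES.B.Red
import Fermat.Agent.ES.B.HeckeDiv
import Mathlib.Algebra.Module.ZMod

/-!
# ES/B: the Kummer module `Kum N m` with its Galois action and Hecke operators
-/

set_option autoImplicit false

open AlgebraicCurve ModularCurve

namespace Fermat.Agent.ES

noncomputable section

variable {N m : ℕ}

/-- An endomorphism of `(FF N)ˣ` preserving `Dm N m` induces an endomorphism of `Kum N m`. -/
def Kum.map (φ : (FF N)ˣ →* (FF N)ˣ) (hD : ∀ f ∈ Dm N m, φ f ∈ Dm N m) : Kum N m →+ Kum N m :=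
  MonoidHom.toAdditive (QuotientGroup.map _ _
    ((φ.comp (Dm N m).subtype).codRestrict (Dm N m) (fun f => hD f f.2)) (by
      rintro ⟨f, hf⟩ hfP
      rw [Subgroup.mem_subgroupOf] at hfP
      obtain ⟨h, hh⟩ := hfP
      rw [Subgroup.mem_comap, Subgroup.mem_subgroupOf]
      refine ⟨φ h, ?_⟩
      have hh' : h ^ m = f := hh
      show φ h ^ m = φ f
      rw [← map_pow, hh']))

theorem Kum.map_mk (φ : (FF N)ˣ →* (FF N)ˣ) (hD : ∀ f ∈ Dm N m, φ f ∈ Dm N m) (f : Dm N m) :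
    Kum.map φ hD (Kum.mk f) = Kum.mk ⟨φ f, hD f f.2⟩ := rfl

theorem Kum.nsmul_eq_zero (x : Kum N m) : m • x = 0 := by
  obtain ⟨f, rfl⟩ := Kum.mk_surjective x
  rw [← Kum.mk_pow, Kum.mk_eq_zero_iff]
  exact ⟨f, rfl⟩

instance Kum.instModule : Module (ZMod m) (Kum N m) :=
  AddCommGroup.zmodModule Kum.nsmul_eq_zero

/-! ### Galois action -/

/-- The action of `σ ∈ G_ℚ` on the Kummer module. -/
def galKum (N m : ℕ) (σ : GQ) : Kum N m →+ Kum N m :=
  Kum.map (galU N σ) (fun _ hf => galU_mem_Dm σ hf)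

theorem galKum_mk (σ : GQ) (f : Dm N m) :
    galKum N m σ (Kum.mk f) = Kum.mk ⟨galU N σ f, galU_mem_Dm σ f.2⟩ := rfl

theorem galU_one (f : (FF N)ˣ) : galU N 1 f = f := by
  apply Units.ext
  rw [coe_galU, galF_one]
  rfl

theorem galU_mul (σ τ : GQ) (f : (FF N)ˣ) : galU N (σ * τ) f = galU N σ (galU N τ f) := by
  apply Units.ext
  rw [coe_galU, galF_mul]
  rfl

theorem galKum_one (x : Kum N m) : galKum N m 1 x = x := by
  obtain ⟨f, rfl⟩ := Kum.mk_surjective x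
  rw [galKum_mk]
  exact congrArg Kum.mk (Subtype.ext (galU_one _))

theorem galKum_mul (σ τ : GQ) (x : Kum N m) :
    galKum N m (σ * τ) x = galKum N m σ (galKum N m τ x) := by
  obtain ⟨f, rfl⟩ := Kum.mk_surjective x
  rw [galKum_mk, galKum_mk, galKum_mk]
  exact congrArg Kum.mk (Subtype.ext (galU_mul _ _ _))

/-- The Galois representation on the Kummer module. -/
def galRep (N m : ℕ) : GQ →* Module.End (ZMod m) (Kum N m) where
  toFun σ := (galKum N m σ).toZModLinearMap m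
  map_one' := LinearMap.ext fun x => galKum_one x
  map_mul' σ τ := LinearMap.ext fun x => galKum_mul σ τ x

@[simp]
theorem galRep_apply (σ : GQ) (x : Kum N m) : galRep N m σ x = galKum N m σ x := rfl

/-! ### Hecke operators -/

section Hecke

variable (N) (ℓ : ℕ) [NeZero N] [NeZero ℓ] (hℓ : ℓ.Prime) (hℓN : ¬ ℓ ∣ N)

/-- The multiplicative Hecke operator on the function field. -/
def heckeF : FF N →* FF N where
  toFun f := ⟨heckeSer ℓ (f : LaurentSeries Qb), heckeSer_mem N ℓ hℓ hℓN f⟩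
  map_one' := Subtype.ext (heckeSer_one ℓ)
  map_mul' f g := Subtype.ext (by
    obtain ⟨ζ, hζ⟩ := exists_primitiveRoot_Qb ℓ
    exact heckeSer_mul ℓ hζ _ _)

@[simp]
theorem coe_heckeF (f : FF N) :
    ((heckeF N ℓ hℓ hℓN f : FF N) : LaurentSeries Qb) = heckeSer ℓ (f : LaurentSeries Qb) := rfl

/-- The multiplicative Hecke operator on units of the function field. -/
def heckeU : (FF N)ˣ →* (FF N)ˣ := Units.map (heckeF N ℓ hℓ hℓN)

@[simp]
theorem coe_heckeU (f : (FF N)ˣ) :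
    ((heckeU N ℓ hℓ hℓN f : (FF N)ˣ) : FF N) = heckeF N ℓ hℓ hℓN f := rfl

theorem heckeU_mem_Dm {f : (FF N)ˣ} (hf : f ∈ Dm N m) : heckeU N ℓ hℓ hℓN f ∈ Dm N m :=
  fun P => dvd_ord_heckeSer N ℓ m hℓ hℓN (f : FF N) f.ne_zero hf P

/-- The Hecke operator `T_ℓ` on the Kummer module. -/
def heckeKum (m : ℕ) : Kum N m →+ Kum N m :=
  Kum.map (heckeU N ℓ hℓ hℓN) (fun _ hf => heckeU_mem_Dm N ℓ hℓ hℓN hf)

theorem heckeKum_mk (f : Dm N m) :
    heckeKum N ℓ hℓ hℓN m (Kum.mk f)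
      = Kum.mk ⟨heckeU N ℓ hℓ hℓN f, heckeU_mem_Dm N ℓ hℓ hℓN f.2⟩ := rfl

theorem galU_heckeU (σ : GQ) (f : (FF N)ˣ) :
    galU N σ (heckeU N ℓ hℓ hℓN f) = heckeU N ℓ hℓ hℓN (galU N σ f) := by
  apply Units.ext
  apply Subtype.ext
  exact coeffMap_gal_heckeSer σ ℓ _

/-- `T_ℓ` commutes with the Galois action. -/
theorem galKum_heckeKum (σ : GQ) (x : Kum N m) :
    galKum N m σ (heckeKum N ℓ hℓ hℓN m x) = heckeKum N ℓ hℓ hℓN m (galKum N m σ x) := by
  obtain ⟨f, rfl⟩ := Kum.mk_surjective x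
  rw [heckeKum_mk, galKum_mk, galKum_mk, heckeKum_mk]
  exact congrArg Kum.mk (Subtype.ext (galU_heckeU N ℓ hℓ hℓN σ _))

/-- `T_ℓ` as a `ℤ/m`-linear endomorphism. -/
def heckeEnd (m : ℕ) : Module.End (ZMod m) (Kum N m) :=
  (heckeKum N ℓ hℓ hℓN m).toZModLinearMap m

@[simp]
theorem heckeEnd_apply (x : Kum N m) : heckeEnd N ℓ hℓ hℓN m x = heckeKum N ℓ hℓ hℓN m x := rfl

end Hecke

end

end Fermat.Agent.ES
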