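import Fermat.Agent.ES.Defs
import Fermat.Agent.S24.Gen
import Fermat.Prelude.Def_ModularCurve_X0ModL

/-!
# ES/B (P): Gauss scaling, and (S): finite level

(P) every `f ∈ F_N^×` is `c * a / b` with `c ∈ ℚ̄^×` and `a b ∈ F_N ∩ A((q))` of nonzero reduction.
Proof: `f = P(j_d)/Q(j_d)` with `P Q` polynomials over `ℚ̄` (`S24.exists_phiF_div`); as
`j_d ∈ ℤ((q))`, the `q`-coefficients of `P(j_d)` lie in a finitely generated `ℤ`-submodule of `ℚ̄`,
so one of them has maximal `A`-norm (`Pivot.exists_max`, noetherianity); divide by it.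

(S) every `f ∈ F_N` is fixed by an open subgroup of `G_ℚ`.
-/

set_option autoImplicit false

open AlgebraicCurve ModularCurve

namespace Fermat.Agent.ES

namespace Pivot

/-- A nonempty set of nonzero elements of a finitely generated `ℤ`-submodule of a valued field
has an element of maximal norm. -/
theorem exists_max {K : Type*} [Field K] (A : ValuationSubring K) (M : Submodule ℤ K)
    (hM : M.FG) (S : Set K) (hS : S.Nonempty) (hSM : ∀ y ∈ S, y ∈ M) (h0 : ∀ y ∈ S, y ≠ 0) :
    ∃ y₀ ∈ S, ∀ y ∈ S, y / y₀ ∈ A := by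
  classical
  have : IsNoetherian ℤ M := isNoetherian_of_fg_of_noetherian M hM
  let Nsub : K → Submodule ℤ M := fun y =>
    { carrier := {z | (z : K) / y ∈ A}
      add_mem' := fun {a b} ha hb => by
        show ((a + b : M) : K) / y ∈ A
        rw [Submodule.coe_add, add_div]
        exact A.add_mem _ _ ha hb
      zero_mem' := by
        show ((0 : M) : K) / y ∈ A
        rw [Submodule.coe_zero, zero_div]
        exact A.zero_mem
      smul_mem' := fun c a ha => by
        show ((c • a : M) : K) / y ∈ A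
        rw [Submodule.coe_smul, smul_div_assoc]
        exact zsmul_mem ha c }
  have hmax := (set_has_maximal_iff_noetherian (R := ℤ) (M := M)).mpr inferInstance
    (Nsub '' S) (hS.image _)
  obtain ⟨_, ⟨y₀, hy₀, rfl⟩, hmax⟩ := hmax
  refine ⟨y₀, hy₀, fun y hy => ?_⟩
  rcases A.mem_or_inv_mem (y / y₀) with h | h
  · exact h
  · rw [inv_div] at h
    have hle : Nsub y₀ ≤ Nsub y := by
      intro z hz
      show (z : K) / y ∈ A
      have hz' : (z : K) / y₀ ∈ A := hz
      have : (z : K) / y = (z : K) / y₀ * (y₀ / y) := by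
        rw [div_mul_div_cancel₀ (h0 y₀ hy₀)]
      rw [this]
      exact A.mul_mem _ _ hz' h
    have hnlt := hmax (Nsub y) ⟨y, hy, rfl⟩
    have heq : Nsub y₀ = Nsub y := by
      by_contra hne
      exact hnlt (lt_of_le_of_ne hle hne)
    have hmem : (⟨y, hSM y hy⟩ : M) ∈ Nsub y := by
      show y / y ∈ A
      rw [div_self (h0 y hy)]
      exact A.one_mem
    rw [← heq] at hmem
    exact hmem

/-- The coefficients lie in a finitely generated `ℤ`-module. -/
def FGCoeff (x : LaurentSeries Qb) : Prop :=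
  ∃ M : Submodule ℤ Qb, M.FG ∧ ∀ n, x.coeff n ∈ M

theorem FGCoeff.add {x y : LaurentSeries Qb} (hx : FGCoeff x) (hy : FGCoeff y) :
    FGCoeff (x + y) := by
  obtain ⟨M₁, h₁, hx⟩ := hx
  obtain ⟨M₂, h₂, hy⟩ := hy
  refine ⟨M₁ ⊔ M₂, h₁.sup h₂, fun n => ?_⟩
  rw [HahnSeries.coeff_add]
  exact add_mem (Submodule.mem_sup_left (hx n)) (Submodule.mem_sup_right (hy n))

theorem FGCoeff.mul {x y : LaurentSeries Qb} (hx : FGCoeff x) (hy : FGCoeff y) :
    FGCoeff (x * y) := by
  obtain ⟨M₁, h₁, hx⟩ := hx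
  obtain ⟨M₂, h₂, hy⟩ := hy
  refine ⟨M₁ * M₂, h₁.mul h₂, fun n => ?_⟩
  rw [HahnSeries.coeff_mul]
  exact sum_mem fun ij _ => Submodule.mul_mem_mul (hx _) (hy _)

theorem FGCoeff.algebraMap (c : Qb) : FGCoeff (algebraMap Qb (LaurentSeries Qb) c) := by
  refine ⟨Submodule.span ℤ {c}, Submodule.fg_span_singleton c, fun n => ?_⟩
  rw [algebraMap_laurentSeries_eq_single, HahnSeries.coeff_single]
  split_ifs
  · exact Submodule.mem_span_singleton_self c
  · exact zero_mem _

theorem FGCoeff.jSer (d : ℕ) [NeZero d] : FGCoeff (S24.jSer d) := by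
  refine ⟨Submodule.span ℤ {1}, Submodule.fg_span_singleton 1, fun n => ?_⟩
  rw [S24.jSer, coeffEmb_coeff]
  by_cases hd : (d : ℤ) ∣ n
  · obtain ⟨k, rfl⟩ := hd
    rw [qExpand_coeff_mul, ← jqModC_rat, coeff_jqModC_eq_intCast, map_intCast]
    rw [Submodule.mem_span_singleton]
    exact ⟨(jqModC ℤ).coeff k, by simp⟩
  · rw [qExpand_coeff_of_not_dvd d _ hd, map_zero]
    exact zero_mem _

theorem FGCoeff.aeval (N : ℕ) [NeZero N] (p : MvPolynomial (S24.Dv N) Qb) :
    FGCoeff (MvPolynomial.aeval (fun d : S24.Dv N => S24.jSer d.1) p) := by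
  induction p using MvPolynomial.induction_on with
  | C c =>
    rw [MvPolynomial.aeval_C]
    exact FGCoeff.algebraMap c
  | add p q hp hq =>
    rw [map_add]
    exact hp.add hq
  | mul_X p d hp =>
    rw [map_mul, MvPolynomial.aeval_X]
    exact hp.mul (FGCoeff.jSer d.1)

/-- A nonzero series with coefficients in a finitely generated `ℤ`-module can be scaled into
`A((q))` with nonzero reduction. -/
theorem exists_scale (A : ValuationSubring Qb) (x : LaurentSeries Qb) (hx : FGCoeff x)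
    (hx0 : x ≠ 0) :
    ∃ (c : Qb) (a : LaurentSeries A), c ≠ 0 ∧
      coeffMap A.subtype a = algebraMap Qb (LaurentSeries Qb) c * x ∧
      coeffMap (IsLocalRing.residue A) a ≠ 0 := by
  classical
  obtain ⟨M, hM, hxM⟩ := hx
  obtain ⟨n₁, hn₁⟩ : ∃ n, x.coeff n ≠ 0 := by
    by_contra hcon
    push Not at hcon
    exact hx0 (HahnSeries.ext (funext hcon))
  obtain ⟨y₀, ⟨⟨n₀, rfl⟩, hy₀⟩, hmax⟩ := exists_max A M hM {y | (∃ n, x.coeff n = y) ∧ y ≠ 0}
    ⟨x.coeff n₁, ⟨n₁, rfl⟩, hn₁⟩ (by rintro _ ⟨⟨n, rfl⟩, -⟩; exact hxM n) (fun y hy => hy.2)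
  have hmem : ∀ n, x.coeff n / x.coeff n₀ ∈ A := by
    intro n
    by_cases hn : x.coeff n = 0
    · rw [hn, zero_div]
      exact A.zero_mem
    · exact hmax _ ⟨⟨n, rfl⟩, hn⟩
  let a : LaurentSeries A :=
    { coeff := fun n => ⟨x.coeff n / x.coeff n₀, hmem n⟩
      isPWO_support' := by
        refine x.isPWO_support.mono ?_
        intro n hn hn0
        apply hn
        apply Subtype.ext
        show x.coeff n / x.coeff n₀ = 0
        rw [hn0, zero_div] }
  refine ⟨(x.coeff n₀)⁻¹, a, inv_ne_zero hy₀, ?_, ?_⟩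
  · ext n
    rw [coeffMap_coeff, S24.Gen.coeff_algebraMap_mul]
    show x.coeff n / x.coeff n₀ = _
    rw [div_eq_inv_mul]
  · intro h
    have h1 := congrArg (fun s => s.coeff n₀) h
    simp only [coeffMap_coeff, HahnSeries.coeff_zero] at h1
    have h2 : a.coeff n₀ = 1 := by
      apply Subtype.ext
      show x.coeff n₀ / x.coeff n₀ = 1
      exact div_self hy₀
    rw [h2, map_one] at h1
    exact one_ne_zero h1

/-- A polynomial in the `j_d` whose coefficients are fixed by `σ` is fixed by `σ`. -/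
theorem coeffMap_aeval (N : ℕ) [NeZero N] (σ : GQ) (p : MvPolynomial (S24.Dv N) Qb)
    (h : ∀ m, σ (p.coeff m) = p.coeff m) :
    coeffMap (σ : Qb →+* Qb) (MvPolynomial.aeval (fun d : S24.Dv N => S24.jSer d.1) p)
      = MvPolynomial.aeval (fun d : S24.Dv N => S24.jSer d.1) p := by
  rw [MvPolynomial.aeval_def, MvPolynomial.eval₂_eq, map_sum]
  refine Finset.sum_congr rfl fun m _ => ?_
  rw [map_mul, coeffMap_algebraMap, map_prod]
  congr 1
  · exact congrArg _ (h m)
  · refine Finset.prod_congr rfl fun d _ => ?_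
    rw [map_pow, S24.jSer, coeffMap_coeffEmb]

end Pivot

theorem exists_integral_fraction (N : ℕ) [NeZero N] (A : ValuationSubring Qb) (f : FF N)
    (hf : f ≠ 0) :
    ∃ (c : Qb) (a b : LaurentSeries A), c ≠ 0 ∧
      coeffMap A.subtype a ∈ modularFunctionFieldBar N ∧
      coeffMap A.subtype b ∈ modularFunctionFieldBar N ∧
      coeffMap (IsLocalRing.residue A) a ≠ 0 ∧
      coeffMap (IsLocalRing.residue A) b ≠ 0 ∧
      (f : LaurentSeries Qb) * coeffMap A.subtype b
        = algebraMap Qb (LaurentSeries Qb) c * coeffMap A.subtype a := by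
  obtain ⟨p, q, hq, hfpq⟩ := S24.exists_phiF_div N f
  have hp : S24.phiF N p ≠ 0 := by
    intro hp
    rw [hp, zero_div] at hfpq
    exact hf hfpq
  have hp' : ((S24.phiF N p : FF N) : LaurentSeries Qb) ≠ 0 := fun h => hp (Subtype.ext h)
  have hq' : ((S24.phiF N q : FF N) : LaurentSeries Qb) ≠ 0 := fun h => hq (Subtype.ext h)
  obtain ⟨c₁, a, hc₁, ha, ha'⟩ := Pivot.exists_scale A _
    (by rw [S24.Gen.coe_phiF]; exact Pivot.FGCoeff.aeval N p) hp'
  obtain ⟨c₂, b, hc₂, hb, hb'⟩ := Pivot.exists_scale A _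
    (by rw [S24.Gen.coe_phiF]; exact Pivot.FGCoeff.aeval N q) hq'
  refine ⟨c₂ / c₁, a, b, div_ne_zero hc₂ hc₁, ?_, ?_, ha', hb', ?_⟩
  · rw [ha]
    exact mul_mem (IntermediateField.algebraMap_mem _ _) (S24.phiF N p).2
  · rw [hb]
    exact mul_mem (IntermediateField.algebraMap_mem _ _) (S24.phiF N q).2
  · have hfq : (f : LaurentSeries Qb) * ((S24.phiF N q : FF N) : LaurentSeries Qb)
        = ((S24.phiF N p : FF N) : LaurentSeries Qb) := by
      have : f * S24.phiF N q = S24.phiF N p := by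
        rw [hfpq, div_mul_cancel₀ _ hq]
      exact congrArg Subtype.val this
    rw [ha, hb, ← hfq, map_div₀]
    have hc₁' : algebraMap Qb (LaurentSeries Qb) c₁ ≠ 0 := by
      rw [Ne, map_eq_zero]
      exact hc₁
    field_simp

theorem exists_finite_level (N : ℕ) [NeZero N] (f : FF N) :
    ∃ L : IntermediateField ℚ Qb, FiniteDimensional ℚ L ∧
      ∀ σ : GQ, (∀ x ∈ L, σ x = x) → galF N σ f = f := by
  classical
  obtain ⟨p, q, hq, hfpq⟩ := S24.exists_phiF_div N f
  refine ⟨IntermediateField.adjoin ℚ ((p.coeffs ∪ q.coeffs : Finset Qb) : Set Qb),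
    IntermediateField.finiteDimensional_adjoin fun x _ =>
      ((AlgebraicClosure.isAlgebraic ℚ).isAlgebraic x).isIntegral, fun σ hσ => ?_⟩
  have key : ∀ r : MvPolynomial (S24.Dv N) Qb, r.coeffs ⊆ p.coeffs ∪ q.coeffs →
      galF N σ (S24.phiF N r) = S24.phiF N r := by
    intro r hr
    apply Subtype.ext
    rw [coe_galF, S24.Gen.coe_phiF]
    refine Pivot.coeffMap_aeval N σ r fun m => ?_
    by_cases hm : r.coeff m = 0
    · rw [hm, map_zero]
    · exact hσ _ (IntermediateField.subset_adjoin _ _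
        (Finset.mem_coe.mpr (hr (MvPolynomial.coeff_mem_coeffs m hm))))
  rw [hfpq, map_div₀, key p Finset.subset_union_left, key q Finset.subset_union_right]

end Fermat.Agent.ES
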