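import Fermat.Agent.ES.B.Module
import Fermat.Agent.ES.B.Pivot

/-!
# ES/B: output.  CRUX ⟹ inertia acts trivially and `φ² - T_ℓ φ + ℓ = 0` on `Kum N m`
-/

set_option autoImplicit false

open AlgebraicCurve ModularCurve

namespace Fermat.Agent.ES

noncomputable section

variable {N m ℓ : ℕ}

theorem coeffMap_subtype_injective (A : ValuationSubring Qb) :
    Function.Injective (coeffMap A.subtype) := by
  intro x y h
  ext n
  have := congrArg (fun z => z.coeff n) h
  simpa using this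

theorem coeffMap_subtype_ne_zero {A : ValuationSubring Qb} {y : LaurentSeries A}
    (hy : coeffMap (resA A) y ≠ 0) : coeffMap A.subtype y ≠ 0 := by
  intro h
  apply hy
  have : y = 0 := coeffMap_subtype_injective A (by rw [h, map_zero])
  rw [this, map_zero]

/-- The way CRUX is used. -/
theorem Kum.mk_eq_zero_of_crux (hcrux : Crux N ℓ m) (A : ValuationSubring Qb)
    (hA : A.LiesOverPrime ℓ) (u : Dm N m) (y₁ y₂ : LaurentSeries A)
    (h₁ : coeffMap A.subtype y₁ ∈ modularFunctionFieldBar N)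
    (h₂ : coeffMap A.subtype y₂ ∈ modularFunctionFieldBar N)
    (hred : coeffMap (resA A) y₁ = coeffMap (resA A) y₂) (hne : coeffMap (resA A) y₂ ≠ 0)
    (hu : (((u : (FF N)ˣ) : FF N) : LaurentSeries Qb) * coeffMap A.subtype y₂
      = coeffMap A.subtype y₁) : Kum.mk u = 0 := by
  have h20 : (⟨_, h₂⟩ : FF N) ≠ 0 := by
    intro h
    exact coeffMap_subtype_ne_zero hne (congrArg Subtype.val h)
  have hq : (⟨_, h₁⟩ : FF N) / ⟨_, h₂⟩ = ((u : (FF N)ˣ) : FF N) := by
    rw [div_eq_iff h20]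
    exact Subtype.ext hu.symm
  obtain ⟨s, hs⟩ := hcrux A hA y₁ y₂ h₁ h₂ hred hne (by rw [hq]; exact u.2)
  rw [hq] at hs
  rw [Kum.mk_eq_zero_iff]
  have hs0 : s ≠ 0 ∨ m = 0 := by
    by_cases hm : m = 0
    · exact Or.inr hm
    · left
      rintro rfl
      rw [zero_pow hm] at hs
      exact (u : (FF N)ˣ).ne_zero hs.symm
  rcases hs0 with hs0 | hm
  · exact ⟨Units.mk0 s hs0, Units.ext (by simpa using hs)⟩
  · subst hm
    exact ⟨1, Units.ext (by simpa using hs)⟩

/-- Every class has a representative which is a quotient of two `A`-integral functions with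
nonzero reduction (constants are `m`-th powers). -/
theorem Kum.exists_rep [NeZero N] (hm : m ≠ 0) (A : ValuationSubring Qb) (x : Kum N m) :
    ∃ (f : Dm N m) (a b : LaurentSeries A), Kum.mk f = x ∧
      coeffMap A.subtype a ∈ modularFunctionFieldBar N ∧
      coeffMap A.subtype b ∈ modularFunctionFieldBar N ∧
      coeffMap (resA A) a ≠ 0 ∧ coeffMap (resA A) b ≠ 0 ∧
      (((f : (FF N)ˣ) : FF N) : LaurentSeries Qb) * coeffMap A.subtype b
        = coeffMap A.subtype a := by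
  obtain ⟨f₀, rfl⟩ := Kum.mk_surjective x
  obtain ⟨c, a, b, hc, ha, hb, ha0, hb0, hab⟩ :=
    exists_integral_fraction N A ((f₀ : (FF N)ˣ) : FF N) (f₀ : (FF N)ˣ).ne_zero
  obtain ⟨d, hd⟩ := IsAlgClosed.exists_pow_nat_eq c (Nat.pos_of_ne_zero hm)
  have hd0 : d ≠ 0 := by
    rintro rfl
    rw [zero_pow hm] at hd
    exact hc hd.symm
  have hd0' : algebraMap Qb (FF N) d ≠ 0 := by
    rw [Ne, map_eq_zero]; exact hd0
  let dU : (FF N)ˣ := Units.mk0 (algebraMap Qb (FF N) d) hd0'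
  have hdP : dU ^ m ∈ Pw N m := ⟨dU, rfl⟩
  let cD : Dm N m := ⟨dU ^ m, Pw_le_Dm N m hdP⟩
  have hcD : Kum.mk cD = 0 := (Kum.mk_eq_zero_iff cD).mpr ⟨dU, rfl⟩
  refine ⟨f₀ * cD⁻¹, a, b, ?_, ha, hb, ha0, hb0, ?_⟩
  · rw [Kum.mk_mul, Kum.mk_inv, hcD, neg_zero, add_zero]
  · have hcoe : (((cD : (FF N)ˣ) : FF N) : LaurentSeries Qb) = algebraMap Qb (LaurentSeries Qb) c := by
      show (((dU ^ m : (FF N)ˣ) : FF N) : LaurentSeries Qb) = _
      rw [Units.val_pow_eq_pow_val, IntermediateField.coe_pow, ← hd, map_pow]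
      rfl
    have hc' : algebraMap Qb (LaurentSeries Qb) c ≠ 0 := by
      rw [Ne, map_eq_zero]; exact hc
    rw [Subgroup.coe_mul, Units.val_mul, IntermediateField.coe_mul, Subgroup.coe_inv,
      Units.val_inv_eq_inv_val, IntermediateField.coe_inv, hcoe, mul_right_comm, hab]
    field_simp

theorem mem_FF_gal (σ : GQ) {x : LaurentSeries Qb} (hx : x ∈ modularFunctionFieldBar N) :
    coeffMap (σ : Qb →+* Qb) x ∈ modularFunctionFieldBar N :=
  coeffMap_mem_laurentBaseChange σ hx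

/-- **Unramifiedness**: CRUX implies that inertia at `A ∣ ℓ` acts trivially on `Kum N m`. -/
theorem galKum_of_mem_inertia [NeZero N] (hm : m ≠ 0) (hcrux : Crux N ℓ m)
    (A : ValuationSubring Qb) (hA : A.LiesOverPrime ℓ) (σ : GQ)
    (hσ : σ ∈ A.inertiaSubgroupIn ℚ) (x : Kum N m) : galKum N m σ x = x := by
  obtain ⟨f, a, b, rfl, ha, hb, ha0, hb0, hab⟩ := Kum.exists_rep hm A x
  obtain ⟨g, rfl, hg⟩ := res_galA_of_inertia hσ
  have hres : ∀ y : LaurentSeries A, coeffMap (resA A) (coeffMap (galA g) y)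
      = coeffMap (resA A) y := fun y => by rw [coeffMap_coeffMap, hg]
  rw [← sub_eq_zero, galKum_mk, sub_eq_add_neg, ← Kum.mk_inv, ← Kum.mk_mul]
  refine Kum.mk_eq_zero_of_crux hcrux A hA _ (coeffMap (galA g) a * b) (a * coeffMap (galA g) b)
    ?_ ?_ ?_ ?_ ?_
  · rw [map_mul, coeffMap_subtype_galA]
    exact mul_mem (mem_FF_gal _ ha) hb
  · rw [map_mul, coeffMap_subtype_galA]
    exact mul_mem ha (mem_FF_gal _ hb)
  · rw [map_mul, map_mul, hres, hres]
  · rw [map_mul, hres]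
    exact mul_ne_zero ha0 hb0
  · rw [map_mul, map_mul, coeffMap_subtype_galA, coeffMap_subtype_galA, ← hab, map_mul]
    have hf0 : (((f : (FF N)ˣ) : FF N) : LaurentSeries Qb) ≠ 0 := by
      intro h
      exact (f : (FF N)ˣ).ne_zero (Subtype.ext h)
    rw [Subgroup.coe_mul, Units.val_mul, IntermediateField.coe_mul, Subgroup.coe_inv,
      Units.val_inv_eq_inv_val, IntermediateField.coe_inv, coe_galU, coe_galF]
    field_simp

theorem coeffMap_ne_zero_of_injective {R S : Type*} [CommRing R] [CommRing S] (f : R →+* S)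
    (hf : Function.Injective f) {x : LaurentSeries R} (hx : x ≠ 0) : coeffMap f x ≠ 0 := by
  intro h
  apply hx
  ext n
  have := congrArg (fun z => z.coeff n) h
  exact hf (by simpa using this)

/-- **Eichler-Shimura relation**: CRUX implies `φ² - T_ℓ φ + ℓ = 0` on `Kum N m` for every
Frobenius element `φ` at `A ∣ ℓ`. -/
theorem eichlerShimura_Kum [NeZero N] [NeZero ℓ] (hm : m ≠ 0) (hℓ : ℓ.Prime) (hℓN : ¬ ℓ ∣ N)
    (hcrux : Crux N ℓ m) (A : ValuationSubring Qb) (hA : A.LiesOverPrime ℓ) (φ : GQ)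
    (hφ : A.IsFrobeniusAt φ ℓ) (x : Kum N m) :
    galKum N m φ (galKum N m φ x) - heckeKum N ℓ hℓ hℓN m (galKum N m φ x) + ℓ • x = 0 := by
  obtain ⟨f, a, b, rfl, ha, hb, ha0, hb0, hab⟩ := Kum.exists_rep hm A x
  obtain ⟨g, rfl, hg⟩ := res_galA_of_frobenius hℓ hA hφ
  obtain ⟨ζ, hζ⟩ := exists_primitiveRoot_Qb ℓ
  have hres : ∀ y : LaurentSeries A, coeffMap (resA A) (coeffMap (galA g) y)
      = coeffMap (frobA hℓ hA) (coeffMap (resA A) y) := fun y => by
    rw [coeffMap_coeffMap, hg, ← coeffMap_coeffMap]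
  have hfrob : ∀ {y : LaurentSeries (kA A)}, y ≠ 0 → coeffMap (frobA hℓ hA) y ≠ 0 := fun hy =>
    coeffMap_ne_zero_of_injective _ (frobA hℓ hA).injective hy
  have hV : ∀ {y : LaurentSeries (kA A)}, y ≠ 0 → Vq (kA A) ℓ y ≠ 0 := fun hy =>
    (map_ne_zero_iff _ (Vq_injective ℓ)).mpr hy
  rw [galKum_mk, galKum_mk, heckeKum_mk, sub_eq_add_neg, ← Kum.mk_inv, ← Kum.mk_mul,
    ← Kum.mk_pow, ← Kum.mk_mul]
  refine Kum.mk_eq_zero_of_crux hcrux A hA _
    (coeffMap (galA g) (coeffMap (galA g) a) * a ^ ℓ * heckeSer ℓ (coeffMap (galA g) b))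
    (coeffMap (galA g) (coeffMap (galA g) b) * b ^ ℓ * heckeSer ℓ (coeffMap (galA g) a))
    ?_ ?_ ?_ ?_ ?_
  · rw [map_mul, map_mul, map_pow, coeffMap_subtype_galA, coeffMap_subtype_galA,
      coeffMap_subtype_heckeSer, coeffMap_subtype_galA]
    exact mul_mem (mul_mem (mem_FF_gal _ (mem_FF_gal _ ha)) (pow_mem ha ℓ))
      (heckeSer_mem N ℓ hℓ hℓN ⟨_, mem_FF_gal _ hb⟩)
  · rw [map_mul, map_mul, map_pow, coeffMap_subtype_galA, coeffMap_subtype_galA,
      coeffMap_subtype_heckeSer, coeffMap_subtype_galA]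
    exact mul_mem (mul_mem (mem_FF_gal _ (mem_FF_gal _ hb)) (pow_mem hb ℓ))
      (heckeSer_mem N ℓ hℓ hℓN ⟨_, mem_FF_gal _ ha⟩)
  · simp only [map_mul, map_pow, coeffMap_res_heckeSer hℓ hA, hres, pow_eq_Vq_frobA hℓ hA]
    ring
  · simp only [map_mul, map_pow, coeffMap_res_heckeSer hℓ hA, hres]
    exact mul_ne_zero (mul_ne_zero (hfrob (hfrob hb0)) (pow_ne_zero _ hb0))
      (mul_ne_zero (hV (hfrob ha0)) (hfrob (hfrob ha0)))
  · have hf0 : (((f : (FF N)ˣ) : FF N) : LaurentSeries Qb) ≠ 0 := by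
      intro h
      exact (f : (FF N)ˣ).ne_zero (Subtype.ext h)
    have hT0 : heckeSer ℓ (coeffMap (((g : GQ) : Qb →+* Qb))
        (((f : (FF N)ˣ) : FF N) : LaurentSeries Qb)) ≠ 0 := by
      intro h
      exact (heckeU N ℓ hℓ hℓN (galU N (g : GQ) f)).ne_zero (Subtype.ext h)
    simp only [map_mul, map_pow, coeffMap_subtype_galA, coeffMap_subtype_heckeSer]
    rw [← hab]
    simp only [map_mul, heckeSer_mul ℓ hζ]
    rw [Subgroup.coe_mul, Subgroup.coe_mul, Units.val_mul, Units.val_mul,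
      IntermediateField.coe_mul, IntermediateField.coe_mul, Subgroup.coe_inv,
      Units.val_inv_eq_inv_val, IntermediateField.coe_inv, Subgroup.coe_pow, Units.val_pow_eq_pow_val,
      IntermediateField.coe_pow]
    simp only [coe_galU, coe_galF, coe_heckeU, coe_heckeF]
    field_simp
    ring

end

end Fermat.Agent.ES
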