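import Fermat.Agent.ES.B.Formal
import Mathlib.RingTheory.PowerSeries.Expand
import Mathlib.RingTheory.MvPowerSeries.Expand
import Mathlib.RingTheory.RootsOfUnity.AlgebraicallyClosed

set_option autoImplicit false
open AlgebraicCurve ModularCurve
namespace Fermat.Agent.ES
noncomputable section

section Frob
variable {k : Type*} [CommRing k]

theorem coeffMap_ofPowerSeries {S : Type*} [CommRing S] (f : k →+* S) (Q : PowerSeries k) :
    coeffMap f (HahnSeries.ofPowerSeries ℤ k Q) = HahnSeries.ofPowerSeries ℤ S (Q.map f) := by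
  ext n
  rw [coeffMap_coeff]
  change f ((Q : LaurentSeries k).coeff n) = ((Q.map f : PowerSeries S) : LaurentSeries S).coeff n
  rw [PowerSeries.coeff_coe, PowerSeries.coeff_coe]
  split_ifs <;> simp

theorem Vq_ofPowerSeries (ℓ : ℕ) [NeZero ℓ] (Q : PowerSeries k) :
    Vq k ℓ (HahnSeries.ofPowerSeries ℤ k Q)
      = HahnSeries.ofPowerSeries ℤ k (PowerSeries.expand ℓ (NeZero.ne ℓ) Q) := by
  ext n
  change _ = ((PowerSeries.expand ℓ (NeZero.ne ℓ) Q : PowerSeries k) : LaurentSeries k).coeff n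
  rw [PowerSeries.coeff_coe]
  by_cases hn : (ℓ : ℤ) ∣ n
  · obtain ⟨m, rfl⟩ := hn
    rw [qExpand_coeff_mul]
    change (Q : LaurentSeries k).coeff m = _
    rw [PowerSeries.coeff_coe]
    have hℓ : (0 : ℤ) < ℓ := by exact_mod_cast Nat.pos_of_ne_zero (NeZero.ne ℓ)
    by_cases hm : m < 0
    · rw [if_pos hm, if_pos (mul_neg_of_pos_of_neg hℓ hm)]
    · rw [if_neg hm, if_neg (not_lt.mpr (mul_nonneg hℓ.le (not_lt.mp hm)))]
      obtain ⟨j, rfl⟩ := Int.eq_ofNat_of_zero_le (not_lt.mp hm)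
      have : ((ℓ : ℤ) * (j : ℤ)).natAbs = ℓ * j := by
        rw [Int.natAbs_mul]; simp
      rw [this, Int.natAbs_natCast, PowerSeries.coeff_expand_mul]
  · rw [qExpand_coeff_of_not_dvd ℓ _ hn]
    split_ifs with h0
    · rfl
    · rw [PowerSeries.coeff_expand_of_not_dvd]
      intro hd
      apply hn
      have : (n.natAbs : ℤ) = n := Int.natAbs_of_nonneg (not_lt.mp h0)
      rw [← this]
      exact_mod_cast hd

theorem pow_char_eq (ℓ : ℕ) [Fact ℓ.Prime] [NeZero ℓ] [CharP k ℓ] (x : LaurentSeries k) :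
    x ^ ℓ = Vq k ℓ (coeffMap (frobenius k ℓ) x) := by
  conv_lhs => rw [← LaurentSeries.single_order_mul_powerSeriesPart x]
  conv_rhs => rw [← LaurentSeries.single_order_mul_powerSeriesPart x]
  rw [mul_pow, map_mul, map_mul, coeffMap_single, qExpand_single, HahnSeries.single_pow,
    coeffMap_ofPowerSeries, Vq_ofPowerSeries, ← map_pow]
  have h1 : HahnSeries.single (ℓ • x.order) ((1 : k) ^ ℓ)
      = HahnSeries.single ((ℓ : ℤ) * x.order) ((frobenius k ℓ) 1) := by simp
  have h2 : x.powerSeriesPart ^ ℓ = PowerSeries.expand ℓ (NeZero.ne ℓ)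
      ((PowerSeries.map (frobenius k ℓ)) x.powerSeriesPart) := by
    rw [← PowerSeries.map_expand]
    exact (MvPowerSeries.map_frobenius_expand ℓ (NeZero.ne ℓ)).symm
  rw [h1, h2]


end Frob

/-! ### Transport of `twistProd`, `normSer`, `heckeSer` along ring homomorphisms -/

section Transport

theorem bijective_restrictRootsOfUnity_equiv {R S : Type*} [CommRing R] [CommRing S]
    (e : R ≃+* S) (ℓ : ℕ) [NeZero ℓ] :
    Function.Bijective (restrictRootsOfUnity (e : R →+* S) ℓ) :=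
  (MulEquiv.restrictRootsOfUnity (e : R ≃* S) ℓ).bijective

variable {R S : Type*} [CommRing R] [IsDomain R] [CommRing S] [IsDomain S]

theorem coeffMap_twistProd (f : R →+* S) (ℓ : ℕ) [NeZero ℓ]
    (hf : Function.Bijective (restrictRootsOfUnity f ℓ)) (x : LaurentSeries R) :
    coeffMap f (twistProd ℓ x) = twistProd ℓ (coeffMap f x) := by
  unfold twistProd
  rw [map_prod]
  simp only [coeffMap_twist]
  exact Fintype.prod_bijective _ hf _ _ (fun z => rfl)

theorem coeffMap_heckeSer (f : R →+* S) (ℓ : ℕ) [NeZero ℓ]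
    (hf : Function.Bijective (restrictRootsOfUnity f ℓ)) (x : LaurentSeries R) :
    coeffMap f (heckeSer ℓ x) = heckeSer ℓ (coeffMap f x) := by
  rw [heckeSer, heckeSer, map_mul, coeffMap_Vq, normSer, normSer, coeffMap_contract,
    coeffMap_twistProd f ℓ hf]

end Transport

/-- Galois equivariance of the multiplicative Hecke operator. -/
theorem coeffMap_gal_heckeSer (σ : GQ) (ℓ : ℕ) [NeZero ℓ] (x : LaurentSeries Qb) :
    coeffMap (σ : Qb →+* Qb) (heckeSer ℓ x) = heckeSer ℓ (coeffMap (σ : Qb →+* Qb) x) :=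
  coeffMap_heckeSer _ ℓ (bijective_restrictRootsOfUnity_equiv σ.toRingEquiv ℓ) x

theorem exists_primitiveRoot_Qb (ℓ : ℕ) [NeZero ℓ] : ∃ ζ : Qb, IsPrimitiveRoot ζ ℓ :=
  HasEnoughRootsOfUnity.exists_primitiveRoot Qb ℓ


/-! ### Reduction modulo a valuation subring of `ℚ̄` -/

section Val

variable (A : ValuationSubring Qb)

/-- The residue field of `A`. -/
abbrev kA : Type := IsLocalRing.ResidueField A

/-- The reduction map. -/
abbrev resA : A →+* kA A := IsLocalRing.residue A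

theorem mem_of_pow_eq_one {ℓ : ℕ} (hℓ : ℓ ≠ 0) {z : Qb} (hz : z ^ ℓ = 1) : z ∈ A := by
  rw [← A.valuation_le_one_iff]
  have h : A.valuation z ^ ℓ = 1 := by rw [← map_pow, hz, map_one]
  exact le_of_eq ((pow_eq_one_iff_of_nonneg zero_le hℓ).mp h)

theorem bijective_restrict_subtype (ℓ : ℕ) [NeZero ℓ] :
    Function.Bijective (restrictRootsOfUnity A.subtype ℓ) := by
  constructor
  · intro z w h
    have h1 : ((restrictRootsOfUnity A.subtype ℓ z : Qbˣ) : Qb)
        = ((restrictRootsOfUnity A.subtype ℓ w : Qbˣ) : Qb) := by rw [h]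
    rw [restrictRootsOfUnity_coe_apply, restrictRootsOfUnity_coe_apply] at h1
    exact Subtype.ext (Units.ext (Subtype.ext h1))
  · intro z
    have hz : ((z : Qbˣ) : Qb) ^ ℓ = 1 := by
      have := z.2
      rw [mem_rootsOfUnity] at this
      rw [← Units.val_pow_eq_pow_val, this, Units.val_one]
    have hzi : (((z : Qbˣ)⁻¹ : Qbˣ) : Qb) ^ ℓ = 1 := by
      rw [← Units.val_pow_eq_pow_val, inv_pow]
      have := z.2
      rw [mem_rootsOfUnity] at this
      rw [this, inv_one, Units.val_one]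
    let u : Aˣ := ⟨⟨_, mem_of_pow_eq_one A (NeZero.ne ℓ) hz⟩,
      ⟨_, mem_of_pow_eq_one A (NeZero.ne ℓ) hzi⟩, Subtype.ext (by simp), Subtype.ext (by simp)⟩
    have hu : u ∈ rootsOfUnity ℓ A := by
      rw [mem_rootsOfUnity]
      exact Units.ext (Subtype.ext (by simpa [u] using hz))
    refine ⟨⟨u, hu⟩, Subtype.ext (Units.ext ?_)⟩
    rw [restrictRootsOfUnity_coe_apply]
    rfl

theorem card_rootsOfUnity_A (ℓ : ℕ) [NeZero ℓ] : Fintype.card (rootsOfUnity ℓ A) = ℓ := by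
  rw [Fintype.card_of_bijective (bijective_restrict_subtype A ℓ)]
  obtain ⟨ζ, hζ⟩ := exists_primitiveRoot_Qb ℓ
  rw [← Nat.card_eq_fintype_card]
  exact hζ.card_rootsOfUnity

theorem coeffMap_subtype_heckeSer (ℓ : ℕ) [NeZero ℓ] (y : LaurentSeries A) :
    coeffMap A.subtype (heckeSer ℓ y) = heckeSer ℓ (coeffMap A.subtype y) :=
  coeffMap_heckeSer _ ℓ (bijective_restrict_subtype A ℓ) y

variable {A}

theorem charP_kA {ℓ : ℕ} (hℓ : ℓ.Prime) (hA : A.LiesOverPrime ℓ) : CharP (kA A) ℓ := by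
  have h0 : ((ℓ : ℕ) : kA A) = 0 := by
    have h1 : (((ℓ : ℕ) : A) : Qb) ∈ A.nonunits := by
      have : (((ℓ : ℕ) : A) : Qb) = (ℓ : Qb) := by simp
      rw [this]; exact hA
    have h2 : ((ℓ : ℕ) : A) ∈ IsLocalRing.maximalIdeal A :=
      ValuationSubring.coe_mem_nonunits_iff.mp h1
    have := (IsLocalRing.residue_eq_zero_iff ((ℓ : ℕ) : A)).mpr h2
    simpa using this
  exact (CharP.charP_iff_prime_eq_zero hℓ).mpr h0

/-- The Frobenius endomorphism of the residue field of `A ∣ ℓ`. -/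
def frobA {ℓ : ℕ} (hℓ : ℓ.Prime) (hA : A.LiesOverPrime ℓ) : kA A →+* kA A :=
  haveI := charP_kA hℓ hA
  haveI : Fact ℓ.Prime := ⟨hℓ⟩
  frobenius (kA A) ℓ

theorem frobA_apply {ℓ : ℕ} (hℓ : ℓ.Prime) (hA : A.LiesOverPrime ℓ) (x : kA A) :
    frobA hℓ hA x = x ^ ℓ := rfl

theorem pow_eq_Vq_frobA {ℓ : ℕ} [NeZero ℓ] (hℓ : ℓ.Prime) (hA : A.LiesOverPrime ℓ)
    (x : LaurentSeries (kA A)) : x ^ ℓ = Vq (kA A) ℓ (coeffMap (frobA hℓ hA) x) := by
  have := charP_kA hℓ hA
  have : Fact ℓ.Prime := ⟨hℓ⟩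
  exact pow_char_eq ℓ x

theorem map_res_root_eq_one {ℓ : ℕ} [NeZero ℓ] (hℓ : ℓ.Prime) (hA : A.LiesOverPrime ℓ)
    (z : rootsOfUnity ℓ A) : Units.map (resA A : A →* kA A) (z : Aˣ) = 1 := by
  have := charP_kA hℓ hA
  have : Fact ℓ.Prime := ⟨hℓ⟩
  have hz : (z : Aˣ) ^ ℓ = 1 := (mem_rootsOfUnity _ _).mp z.2
  apply Units.ext
  rw [Units.val_one, Units.coe_map]
  have h1 : ((resA A : A →* kA A) ((z : Aˣ) : A)) ^ ℓ = 1 := by
    rw [← map_pow, ← Units.val_pow_eq_pow_val, hz, Units.val_one, map_one]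
  have h2 : ((resA A : A →* kA A) ((z : Aˣ) : A) - 1) ^ ℓ = 0 := by
    rw [sub_pow_char, h1, one_pow, sub_self]
  exact sub_eq_zero.mp (pow_eq_zero_iff (NeZero.ne ℓ) |>.mp h2)

theorem coeffMap_res_twistProd {ℓ : ℕ} [NeZero ℓ] (hℓ : ℓ.Prime) (hA : A.LiesOverPrime ℓ)
    (y : LaurentSeries A) :
    coeffMap (resA A) (twistProd ℓ y) = coeffMap (resA A) y ^ ℓ := by
  unfold twistProd
  rw [map_prod]
  simp only [coeffMap_twist]
  have : ∀ z : rootsOfUnity ℓ A,
      twist (Units.map (resA A : A →* kA A) (z : Aˣ)) (coeffMap (resA A) y)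
        = coeffMap (resA A) y := fun z => by
    rw [map_res_root_eq_one hℓ hA z, twist_one]
  rw [Finset.prod_congr rfl (fun z _ => this z), Finset.prod_const, Finset.card_univ,
    card_rootsOfUnity_A]

/-- **Kronecker congruence**, formal version: the reduction of the multiplicative Hecke operator. -/
theorem coeffMap_res_heckeSer {ℓ : ℕ} [NeZero ℓ] (hℓ : ℓ.Prime) (hA : A.LiesOverPrime ℓ)
    (y : LaurentSeries A) :
    coeffMap (resA A) (heckeSer ℓ y)
      = Vq (kA A) ℓ (coeffMap (resA A) y) * coeffMap (frobA hℓ hA) (coeffMap (resA A) y) := by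
  rw [heckeSer, map_mul, coeffMap_Vq, normSer, coeffMap_contract, coeffMap_res_twistProd hℓ hA,
    pow_eq_Vq_frobA hℓ hA, contract_Vq]

/-! ### Decomposition group acting on `A((q))` -/

/-- The ring endomorphism of `A` induced by an element of the decomposition group. -/
def galA (g : A.decompositionSubgroup ℚ) : A →+* A := MulSemiringAction.toRingHom _ A g

theorem coe_galA (g : A.decompositionSubgroup ℚ) (a : A) : ((galA g a : A) : Qb) = (g : GQ) a :=
  rfl

theorem coeffMap_subtype_galA (g : A.decompositionSubgroup ℚ) (y : LaurentSeries A) :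
    coeffMap A.subtype (coeffMap (galA g) y)
      = coeffMap (((g : GQ) : Qb →+* Qb)) (coeffMap A.subtype y) := by
  ext n
  simp only [coeffMap_coeff]
  rfl

theorem res_galA_of_inertia {σ : GQ} (hσ : σ ∈ A.inertiaSubgroupIn ℚ) :
    ∃ g : A.decompositionSubgroup ℚ, (g : GQ) = σ ∧ (resA A).comp (galA g) = resA A := by
  obtain ⟨τ, hτ, rfl⟩ := Subgroup.mem_map.mp hσ
  refine ⟨τ, rfl, RingHom.ext fun a => ?_⟩
  have h1 : MulSemiringAction.toRingAut (A.decompositionSubgroup ℚ)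
      (IsLocalRing.ResidueField A) τ = 1 := hτ
  have h2 : τ • IsLocalRing.residue A a = IsLocalRing.residue A a :=
    congrArg (fun f => f (IsLocalRing.residue A a)) h1
  rw [← IsLocalRing.ResidueField.residue_smul] at h2
  exact h2

theorem res_galA_of_frobenius {ℓ : ℕ} (hℓ : ℓ.Prime) (hA : A.LiesOverPrime ℓ) {σ : GQ}
    (hσ : A.IsFrobeniusAt σ ℓ) :
    ∃ g : A.decompositionSubgroup ℚ, (g : GQ) = σ ∧
      (resA A).comp (galA g) = (frobA hℓ hA).comp (resA A) := by
  obtain ⟨h, hfr⟩ := hσ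
  refine ⟨⟨σ, h⟩, rfl, RingHom.ext fun a => ?_⟩
  have h2 := hfr (IsLocalRing.residue A a)
  rw [← IsLocalRing.ResidueField.residue_smul] at h2
  exact h2

end Val

end
end Fermat.Agent.ES
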