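import Fermat.Agent.ES.B.Comm
import Fermat.Agent.ES.B.Output
import Fermat.Agent.ES.D.Defs

/-!
# ES/B: `Kum N m` as an `ESModule` (interface of part (D))

Inputs still to be supplied: CRUX (part (C)), finiteness of `Kum N m` and the support property
(part (A)).
-/

set_option autoImplicit false

open AlgebraicCurve ModularCurve

namespace Fermat.Agent.ES

noncomputable section

variable (N : ℕ) [NeZero N] (m : ℕ)

/-- `T_ℓ` on `Kum N m`, indexed by good primes. -/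
def heckeT (ℓ : D.GoodPrime N) : Module.End ℤ (Kum N m) :=
  haveI : NeZero ℓ.1 := ⟨ℓ.2.1.ne_zero⟩
  (heckeKum N ℓ.1 ℓ.2.1 ℓ.2.2 m).toIntLinearMap

theorem heckeT_apply (ℓ : D.GoodPrime N) (x : Kum N m) :
    heckeT N m ℓ x = (haveI : NeZero ℓ.1 := ⟨ℓ.2.1.ne_zero⟩; heckeKum N ℓ.1 ℓ.2.1 ℓ.2.2 m x) :=
  rfl

/-- The Galois action on `Kum N m`, as `ℤ`-linear maps. -/
def galRepZ : GQ →* Module.End ℤ (Kum N m) where
  toFun σ := (galKum N m σ).toIntLinearMap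
  map_one' := LinearMap.ext fun x => galKum_one x
  map_mul' σ τ := LinearMap.ext fun x => galKum_mul σ τ x

theorem galRepZ_apply (σ : GQ) (x : Kum N m) : galRepZ N m σ x = galKum N m σ x := rfl

/-- Every class of `Kum N m` is fixed by an open subgroup of `G_ℚ`. -/
theorem galKum_smooth (x : Kum N m) :
    ∃ L : IntermediateField ℚ Qb, FiniteDimensional ℚ L ∧
      ∀ σ : GQ, (∀ y ∈ L, σ y = y) → galKum N m σ x = x := by
  obtain ⟨f, rfl⟩ := Kum.mk_surjective x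
  obtain ⟨L, hL, h⟩ := exists_finite_level N ((f : (FF N)ˣ) : FF N)
  refine ⟨L, hL, fun σ hσ => ?_⟩
  rw [galKum_mk]
  exact congrArg Kum.mk (Subtype.ext (Units.ext (h σ hσ)))

/-- The support property, to be supplied by part (A). -/
def SuppProp : Prop :=
  ∀ P : FreeAlgebra ℤ (D.GoodPrime N), FreeAlgebra.lift ℤ (heckeT N m) P = 0 →
    ∃ Q : Module.End ℂ (CuspForm (CongruenceSubgroup.Gamma0 N) 2), IsIntegral ℤ Q ∧
      FreeAlgebra.lift ℤ (D.heckeS2 N) P = (m : ℤ) • Q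

/-- `Kum N m` is an Eichler-Shimura module, given CRUX (C), finiteness and support (A). -/
def esModule (hm : m ≠ 0) (hcrux : ∀ ℓ : ℕ, ℓ.Prime → ¬ ℓ ∣ N * m → Crux N ℓ m)
    (hfin : Finite (Kum N m)) (hsupp : SuppProp N m) : D.ESModule N m where
  V := Kum N m
  ρ := galRepZ N m
  T := heckeT N m
  T_comm ℓ ℓ' := LinearMap.ext fun x => by
    haveI : NeZero ℓ.1 := ⟨ℓ.2.1.ne_zero⟩
    haveI : NeZero ℓ'.1 := ⟨ℓ'.2.1.ne_zero⟩
    exact heckeKum_comm ℓ.1 ℓ'.1 ℓ.2.1 ℓ.2.2 ℓ'.2.1 ℓ'.2.2 x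
  T_ρ_comm ℓ σ := LinearMap.ext fun x => by
    haveI : NeZero ℓ.1 := ⟨ℓ.2.1.ne_zero⟩
    exact (galKum_heckeKum N ℓ.1 ℓ.2.1 ℓ.2.2 σ x).symm
  smooth := galKum_smooth N m
  unram ℓ hℓ hℓNm A hA σ hσ x := galKum_of_mem_inertia hm (hcrux ℓ hℓ hℓNm) A hA σ hσ x
  eichlerShimura ℓ hℓm A hA σ hσ x := by
    haveI : NeZero ℓ.1 := ⟨ℓ.2.1.ne_zero⟩
    have hNm : ¬ ℓ.1 ∣ N * m := fun h => (ℓ.2.1.dvd_mul.mp h).elim ℓ.2.2 hℓm
    exact eichlerShimura_Kum hm ℓ.2.1 ℓ.2.2 (hcrux ℓ.1 ℓ.2.1 hNm) A hA σ hσ x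
  supp := hsupp

end

end Fermat.Agent.ES
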