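import Fermat.Agent.ES.B.ToD

/-!
# ES/B: transition maps `Kum N m → Kum N m'` for `m' ∣ m`

The map is induced by the identity on functions (on `J₀(N)[m] → J₀(N)[m']` it is multiplication by
`m / m'`).  It commutes with the Galois action and the Hecke operators.
-/

set_option autoImplicit false

open AlgebraicCurve ModularCurve

namespace Fermat.Agent.ES

noncomputable section

variable {N m m' m'' : ℕ}

theorem mem_Dm_of_dvd (h : m' ∣ m) {f : (FF N)ˣ} (hf : f ∈ Dm N m) : f ∈ Dm N m' := fun P =>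
  (Int.natCast_dvd_natCast.mpr h).trans (hf P)

theorem mem_Pw_of_dvd (h : m' ∣ m) {f : (FF N)ˣ} (hf : f ∈ Pw N m) : f ∈ Pw N m' := by
  obtain ⟨g, rfl⟩ := hf
  obtain ⟨k, rfl⟩ := h
  exact ⟨g ^ k, by simp [powMonoidHom_apply, ← pow_mul, mul_comm]⟩

/-- The inclusion `Dm N m ⊆ Dm N m'` for `m' ∣ m`. -/
def Dm.incl (N : ℕ) (h : m' ∣ m) : Dm N m →* Dm N m' :=
  (Dm N m).subtype.codRestrict (Dm N m') (fun f => mem_Dm_of_dvd h f.2)

theorem Dm.coe_incl (h : m' ∣ m) (f : Dm N m) : (Dm.incl N h f : (FF N)ˣ) = f := rfl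

/-- The natural map `Kum N m → Kum N m'` for `m' ∣ m`, induced by the identity on functions. -/
def Kum.trans (N : ℕ) (h : m' ∣ m) : Kum N m →+ Kum N m' :=
  MonoidHom.toAdditive (QuotientGroup.map _ _ (Dm.incl N h) (by
    rintro ⟨f, hf⟩ hfP
    rw [Subgroup.mem_subgroupOf] at hfP
    rw [Subgroup.mem_comap, Subgroup.mem_subgroupOf]
    exact mem_Pw_of_dvd h hfP))

theorem Kum.trans_mk (h : m' ∣ m) (f : Dm N m) :
    Kum.trans N h (Kum.mk f) = Kum.mk (Dm.incl N h f) := rfl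

theorem Kum.trans_refl (x : Kum N m) : Kum.trans N (dvd_refl m) x = x := by
  obtain ⟨f, rfl⟩ := Kum.mk_surjective x
  rfl

theorem Kum.trans_trans (h : m' ∣ m) (h' : m'' ∣ m') (x : Kum N m) :
    Kum.trans N h' (Kum.trans N h x) = Kum.trans N (h'.trans h) x := by
  obtain ⟨f, rfl⟩ := Kum.mk_surjective x
  rfl

theorem Kum.trans_map (h : m' ∣ m) (φ : (FF N)ˣ →* (FF N)ˣ) (hD : ∀ f ∈ Dm N m, φ f ∈ Dm N m)
    (hD' : ∀ f ∈ Dm N m', φ f ∈ Dm N m') (x : Kum N m) :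
    Kum.trans N h (Kum.map φ hD x) = Kum.map φ hD' (Kum.trans N h x) := by
  obtain ⟨f, rfl⟩ := Kum.mk_surjective x
  rfl

/-- the transition maps are Galois equivariant. -/
theorem Kum.trans_galKum (h : m' ∣ m) (σ : GQ) (x : Kum N m) :
    Kum.trans N h (galKum N m σ x) = galKum N m' σ (Kum.trans N h x) :=
  Kum.trans_map h _ _ _ x

/-- the transition maps are Hecke equivariant. -/
theorem Kum.trans_heckeKum [NeZero N] (h : m' ∣ m) (ℓ : ℕ) [NeZero ℓ] (hℓ : ℓ.Prime)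
    (hℓN : ¬ ℓ ∣ N) (x : Kum N m) :
    Kum.trans N h (heckeKum N ℓ hℓ hℓN m x) = heckeKum N ℓ hℓ hℓN m' (Kum.trans N h x) :=
  Kum.trans_map h _ _ _ x

theorem Kum.trans_heckeT [NeZero N] (h : m' ∣ m) (ℓ : D.GoodPrime N) (x : Kum N m) :
    Kum.trans N h (heckeT N m ℓ x) = heckeT N m' ℓ (Kum.trans N h x) :=
  haveI : NeZero ℓ.1 := ⟨ℓ.2.1.ne_zero⟩
  Kum.trans_heckeKum h ℓ.1 ℓ.2.1 ℓ.2.2 x

theorem Kum.trans_galRepZ [NeZero N] (h : m' ∣ m) (σ : GQ) (x : Kum N m) :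
    Kum.trans N h (galRepZ N m σ x) = galRepZ N m' σ (Kum.trans N h x) :=
  Kum.trans_galKum h σ x

/-- the kernel of the transition map contains `m' • Kum N m`. -/
theorem Kum.trans_nsmul (h : m' ∣ m) (x : Kum N m) : Kum.trans N h (m' • x) = 0 := by
  rw [map_nsmul]
  exact Kum.nsmul_eq_zero _

theorem pow_mem_Dm_mul (k : ℕ) {f : (FF N)ˣ} (hf : f ∈ Dm N m') : f ^ k ∈ Dm N (m' * k) := by
  intro P
  have h1 : ((f ^ k : (FF N)ˣ) : FF N) = (f : FF N) ^ (k : ℤ) := by simp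
  rw [h1, P.ord_zpow]
  obtain ⟨c, hc⟩ := hf P
  rw [hc]
  exact ⟨c, by push_cast; ring⟩

/-- `f ↦ f ^ k`, `Dm N m' → Dm N (m' * k)`. -/
def Dm.powHom (N m' k : ℕ) : Dm N m' →* Dm N (m' * k) :=
  ((powMonoidHom k : (FF N)ˣ →* (FF N)ˣ).comp (Dm N m').subtype).codRestrict (Dm N (m' * k))
    (fun f => pow_mem_Dm_mul k f.2)

theorem Dm.coe_powHom (k : ℕ) (f : Dm N m') : (Dm.powHom N m' k f : (FF N)ˣ) = (f : (FF N)ˣ) ^ k :=
  rfl

/-- The map `Kum N m' → Kum N (m' * k)`, `f ↦ f ^ k` (the inclusion `J[m'] ⊆ J[m' k]`). -/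
def Kum.incl (N : ℕ) (m' k : ℕ) : Kum N m' →+ Kum N (m' * k) :=
  MonoidHom.toAdditive (QuotientGroup.map _ _ (Dm.powHom N m' k) (by
    rintro ⟨f, hf⟩ hfP
    rw [Subgroup.mem_subgroupOf] at hfP
    obtain ⟨g, hg⟩ := hfP
    rw [Subgroup.mem_comap, Subgroup.mem_subgroupOf]
    refine ⟨g, ?_⟩
    have hg' : g ^ m' = f := hg
    show g ^ (m' * k) = f ^ k
    rw [pow_mul, hg']))

theorem Kum.incl_mk (k : ℕ) (f : Dm N m') :
    Kum.incl N m' k (Kum.mk f) = Kum.mk (Dm.powHom N m' k f) := rfl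

/-- `trans ∘ incl = k`. -/
theorem Kum.trans_incl (k : ℕ) (x : Kum N m') :
    Kum.trans N (dvd_mul_right m' k) (Kum.incl N m' k x) = k • x := by
  obtain ⟨f, rfl⟩ := Kum.mk_surjective x
  rfl

/-- `incl ∘ trans = k`. -/
theorem Kum.incl_trans (k : ℕ) (x : Kum N (m' * k)) :
    Kum.incl N m' k (Kum.trans N (dvd_mul_right m' k) x) = k • x := by
  obtain ⟨f, rfl⟩ := Kum.mk_surjective x
  rfl

theorem Kum.incl_map (k : ℕ) (φ : (FF N)ˣ →* (FF N)ˣ) (hD : ∀ f ∈ Dm N m', φ f ∈ Dm N m')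
    (hD' : ∀ f ∈ Dm N (m' * k), φ f ∈ Dm N (m' * k)) (x : Kum N m') :
    Kum.incl N m' k (Kum.map φ hD x) = Kum.map φ hD' (Kum.incl N m' k x) := by
  obtain ⟨f, rfl⟩ := Kum.mk_surjective x
  rw [Kum.map_mk, Kum.incl_mk, Kum.incl_mk, Kum.map_mk]
  exact congrArg Kum.mk (Subtype.ext (map_pow φ _ k).symm)

theorem Kum.incl_galKum (k : ℕ) (σ : GQ) (x : Kum N m') :
    Kum.incl N m' k (galKum N m' σ x) = galKum N (m' * k) σ (Kum.incl N m' k x) :=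
  Kum.incl_map k _ _ _ x

theorem Kum.incl_heckeKum [NeZero N] (k : ℕ) (ℓ : ℕ) [NeZero ℓ] (hℓ : ℓ.Prime)
    (hℓN : ¬ ℓ ∣ N) (x : Kum N m') :
    Kum.incl N m' k (heckeKum N ℓ hℓ hℓN m' x) = heckeKum N ℓ hℓ hℓN (m' * k) (Kum.incl N m' k x) :=
  Kum.incl_map k _ _ _ x

end

end Fermat.Agent.ES
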